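import Fermat.Prelude.Def_AlgebraicCurve_IsCurveOver
import Fermat.Prelude.Def_AlgebraicCurve_Repartitions
import Mathlib.RingTheory.TensorProduct.Basic
import Mathlib.LinearAlgebra.TensorProduct.Basis
import Mathlib.FieldTheory.IntermediateField.Adjoin.Basic

/-!
# Constant field extensions of function fields: basic data

`IsConstExt K L F F'` says that the field `F'` is the compositum of `L` and `F` over `K`, and that
`L` and `F` are linearly disjoint over `K` inside `F'`. `RationalPlaces K F` says that all places
of `F` over `K` have degree one.
-/

set_option autoImplicit false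

noncomputable section

open scoped TensorProduct
open AlgebraicCurve

namespace Fermat.Agent.FF.ConstExt

section Classes

variable (K L F F' : Type*) [Field K] [Field L] [Field F] [Field F']
  [Algebra K L] [Algebra K F] [Algebra L F'] [Algebra F F'] [Algebra K F']
  [IsScalarTower K L F'] [IsScalarTower K F F']

/-- The multiplication map `L ⊗[K] F →ₐ[L] F'`. -/
def mulMap : L ⊗[K] F →ₐ[L] F' :=
  Algebra.TensorProduct.lift (Algebra.ofId L F') (IsScalarTower.toAlgHom K F F')
    (fun _ _ => Commute.all _ _)

/-- `F'` is the constant field extension of `F` from `K` to `L`. -/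
class IsConstExt : Prop where
  mulMap_injective : Function.Injective (mulMap K L F F')
  adjoin_eq_top : IntermediateField.adjoin L (Set.range (algebraMap F F')) = ⊤

/-- All places have degree one. -/
class RationalPlaces : Prop where
  deg_eq_one : ∀ v : Place K F, v.deg = 1

instance (priority := 100) rationalPlaces_of_isCurveOver [IsAlgClosed K] [IsCurveOver K F] :
    RationalPlaces K F :=
  ⟨IsCurveOver.deg_eq_one_of_isAlgClosed⟩

variable {K L F F'}

@[simp]
theorem mulMap_tmul (c : L) (f : F) :
    mulMap K L F F' (c ⊗ₜ f) = algebraMap L F' c * algebraMap F F' f := by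
  simp [mulMap]

end Classes

variable {K F : Type*} [Field K] [Field F] [Algebra K F] [RationalPlaces K F]

theorem algebraMap_residueField_bijective (v : Place K F) :
    Function.Bijective (algebraMap K v.ResidueField) :=
  haveI : Module.Finite K v.ResidueField :=
    Module.finite_of_finrank_eq_succ (n := 0) (RationalPlaces.deg_eq_one v)
  bijective_algebraMap_of_linearEquiv
    (LinearEquiv.ofFinrankEq K v.ResidueField
      (by rw [Module.finrank_self]; exact (RationalPlaces.deg_eq_one v).symm))

/-- Evaluation at a rational place. -/
def evalAt (v : Place K F) : v.toValuationSubring →ₐ[K] K :=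
  ((AlgEquiv.ofBijective (Algebra.ofId K v.ResidueField)
      (algebraMap_residueField_bijective v)).symm.toAlgHom).comp
    (IsScalarTower.toAlgHom K v.toValuationSubring v.ResidueField)

theorem evalAt_eq_zero_iff (v : Place K F) (a : v.toValuationSubring) :
    evalAt v a = 0 ↔ a ∈ IsLocalRing.maximalIdeal v.toValuationSubring := by
  simp [evalAt, IsLocalRing.residue_eq_zero_iff, IsScalarTower.coe_toAlgHom',
    IsLocalRing.ResidueField.algebraMap_eq]

theorem evalAt_ne_zero_iff (v : Place K F) (a : v.toValuationSubring) :
    evalAt v a ≠ 0 ↔ IsUnit a := by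
  rw [Ne, evalAt_eq_zero_iff, IsLocalRing.mem_maximalIdeal, mem_nonunits_iff, not_not]

end Fermat.Agent.FF.ConstExt

end
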