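import Fermat.Agent.FF.ConstExt.Local

/-!
# Extension of rational places along a constant field extension

`extPlace L F' v` is the unique place of `F'` over `L` lying over the rational place `v` of `F`.
It is unramified and has degree one. A place of `F'` which is nontrivial on `F` is of this form.
-/

set_option autoImplicit false
set_option linter.unusedSectionVars false

noncomputable section

open scoped TensorProduct
open AlgebraicCurve

namespace Fermat.Agent.FF.ConstExt

theorem isPrincipalIdealRing_of_forall_exists_pow {R : Type*} [CommRing R] (π : R)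
    (h : ∀ x : R, x ≠ 0 → ∃ (n : ℕ) (u : Rˣ), x = u * π ^ n) : IsPrincipalIdealRing R := by
  classical
  refine ⟨fun I => ?_⟩
  rcases eq_or_ne I ⊥ with rfl | hI
  · exact ⟨⟨0, by simp⟩⟩
  have hex : ∃ n, π ^ n ∈ I := by
    obtain ⟨x, hx, hx0⟩ := Submodule.exists_mem_ne_zero_of_ne_bot hI
    obtain ⟨n, u, rfl⟩ := h x hx0
    exact ⟨n, (Ideal.unit_mul_mem_iff_mem I u.isUnit).mp hx⟩
  refine ⟨⟨π ^ Nat.find hex, ?_⟩⟩
  refine le_antisymm (fun x hx => ?_)
    ((Ideal.span_singleton_le_iff_mem I).mpr (Nat.find_spec hex))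
  rcases eq_or_ne x 0 with rfl | hx0
  · exact Ideal.zero_mem _
  obtain ⟨n, u, rfl⟩ := h x hx0
  have hn : Nat.find hex ≤ n :=
    Nat.find_min' hex ((Ideal.unit_mul_mem_iff_mem I u.isUnit).mp hx)
  exact Ideal.mul_mem_left _ _ (Ideal.mem_span_singleton.mpr (pow_dvd_pow π hn))

section General

variable {K F : Type*} [Field K] [Field F] [Algebra K F]

theorem ord_nonneg_of_mem' (v : Place K F) {f : F} (hf : f ∈ v.toValuationSubring) :
    0 ≤ v.ord f := by
  rcases v.adicValuation_le_one_iff.mp (v.adicValuation_le_one_of_mem hf) with h | h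
  · simp [h]
  · exact h

theorem mem_iff_ord_nonneg' (v : Place K F) {f : F} (hf : f ≠ 0) :
    f ∈ v.toValuationSubring ↔ 0 ≤ v.ord f := by
  refine ⟨ord_nonneg_of_mem' v, fun h => ?_⟩
  obtain ⟨π, hπ⟩ := IsDiscreteValuationRing.exists_irreducible v.toValuationSubring
  obtain ⟨u, hu⟩ := v.exists_unit_mul_zpow hf hπ
  rw [hu, ← Int.toNat_of_nonneg h, zpow_natCast]
  exact mul_mem (SetLike.coe_mem _) (pow_mem π.2 _)

end General

variable {K F : Type*} [Field K] [Field F] [Algebra K F]
variable (L F' : Type*) [Field L] [Field F']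
  [Algebra K L] [Algebra L F'] [Algebra F F'] [Algebra K F']
  [IsScalarTower K L F'] [IsScalarTower K F F']
variable [RationalPlaces K F]

/-- Elements `g` of `F'` of the form `a / u` with `u` a local unit at `v`. -/
def IsLocalAt (v : Place K F) (g : F') : Prop :=
  ∃ a u : L ⊗[K] v.toValuationSubring,
    localEval K L F v u ≠ 0 ∧ g * localMap K L F F' v u = localMap K L F F' v a

/-- A chosen uniformizer of `v`. -/
def unif (v : Place K F) : v.toValuationSubring :=
  (IsDiscreteValuationRing.exists_irreducible v.toValuationSubring).choose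

omit [RationalPlaces K F] in
theorem unif_irreducible (v : Place K F) : Irreducible (unif v) :=
  (IsDiscreteValuationRing.exists_irreducible v.toValuationSubring).choose_spec

/-- The image of the chosen uniformizer in `F'`. -/
def unif' (v : Place K F) : F' := algebraMap F F' (unif v : F)

omit [RationalPlaces K F] in
theorem unif'_ne_zero (v : Place K F) : unif' F' v ≠ 0 := by
  simpa [unif', ZeroMemClass.coe_eq_zero] using (unif_irreducible v).ne_zero

variable [IsConstExt K L F F'] (v : Place K F)

variable {L F'}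

omit [IsConstExt K L F F'] in
theorem localMap_unif_pow (n : ℕ) :
    localMap K L F F' v ((1 ⊗ₜ unif v) ^ n) = unif' F' v ^ n := by
  simp [unif']

theorem localMap_ne_zero {u : L ⊗[K] v.toValuationSubring}
    (hu : localEval K L F v u ≠ 0) : localMap K L F F' v u ≠ 0 := fun h =>
  hu (by rw [(map_eq_zero_iff _ (localMap_injective v)).mp h, map_zero])

theorem isLocalAt_localMap_mul_inv {a u : L ⊗[K] v.toValuationSubring}
    (hu : localEval K L F v u ≠ 0) :
    IsLocalAt L F' v (localMap K L F F' v a * (localMap K L F F' v u)⁻¹) :=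
  ⟨a, u, hu, by rw [mul_assoc, inv_mul_cancel₀ (localMap_ne_zero v hu), mul_one]⟩

theorem localEval_mul_ne_zero {a b : L ⊗[K] v.toValuationSubring}
    (ha : localEval K L F v a ≠ 0) (hb : localEval K L F v b ≠ 0) :
    localEval K L F v (a * b) ≠ 0 := by
  rw [map_mul]
  exact mul_ne_zero ha hb

variable (L F') in
/-- The subfield of elements `π ^ k * a / u`. -/
def localFracField : IntermediateField L F' :=
  Subfield.toIntermediateField
    { carrier := {g | ∃ (k : ℤ) (a u : L ⊗[K] v.toValuationSubring), localEval K L F v u ≠ 0 ∧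
          g * localMap K L F F' v u = unif' F' v ^ k * localMap K L F F' v a}
      zero_mem' := ⟨0, 0, 1, by simp, by simp⟩
      one_mem' := ⟨0, 1, 1, by simp, by simp⟩
      neg_mem' := by
        rintro x ⟨k, a, u, hu, h⟩
        exact ⟨k, -a, u, hu, by rw [map_neg, neg_mul, h, mul_neg]⟩
      mul_mem' := by
        rintro x y ⟨k, a, u, hu, h⟩ ⟨l, b, w, hw, h'⟩
        refine ⟨k + l, a * b, u * w, localEval_mul_ne_zero v hu hw, ?_⟩
        rw [map_mul, map_mul, zpow_add₀ (unif'_ne_zero F' v)]
        linear_combination (y * localMap K L F F' v w) * h +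
          (unif' F' v ^ k * localMap K L F F' v a) * h'
      add_mem' := by
        rintro x y ⟨k, a, u, hu, h⟩ ⟨l, b, w, hw, h'⟩
        wlog hkl : k ≤ l generalizing x y k l a b u w
        · rw [add_comm]
          exact this l b w hw h' k a u hu h (le_of_not_ge hkl)
        obtain ⟨m, rfl⟩ := Int.le.dest hkl
        refine ⟨k, a * w + (1 ⊗ₜ unif v) ^ m * (b * u), u * w,
          localEval_mul_ne_zero v hu hw, ?_⟩
        rw [map_add, map_mul, map_mul, map_mul, map_mul, localMap_unif_pow]
        rw [zpow_add₀ (unif'_ne_zero F' v), zpow_natCast] at h'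
        linear_combination (localMap K L F F' v w) * h + (localMap K L F F' v u) * h'
      inv_mem' := by
        rintro x ⟨k, a, u, hu, h⟩
        rcases eq_or_ne x 0 with rfl | hx
        · exact ⟨0, 0, 1, by simp, by simp⟩
        have ha : a ≠ 0 := by
          rintro rfl
          rw [map_zero, mul_zero] at h
          exact mul_ne_zero hx (localMap_ne_zero v hu) h
        obtain ⟨n, a', ha', rfl⟩ := exists_eq_pow_mul v ha (unif_irreducible v)
        refine ⟨-(k + n), u, a', ha', ?_⟩
        rw [map_mul, localMap_unif_pow] at h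
        rw [zpow_neg, zpow_add₀ (unif'_ne_zero F' v), zpow_natCast]
        have h1 : unif' F' v ^ k ≠ 0 := zpow_ne_zero _ (unif'_ne_zero F' v)
        have h2 : unif' F' v ^ n ≠ 0 := pow_ne_zero _ (unif'_ne_zero F' v)
        field_simp
        linear_combination -h }
    (fun c => ⟨0, c ⊗ₜ 1, 1, by simp, by simp⟩)

theorem localFracField_eq_top : localFracField L F' v = ⊤ := by
  refine top_unique ?_
  rw [← IsConstExt.adjoin_eq_top (K := K) (L := L) (F := F) (F' := F'),
    IntermediateField.adjoin_le_iff]
  rintro _ ⟨f, rfl⟩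
  rcases eq_or_ne f 0 with rfl | hf
  · rw [map_zero]
    exact zero_mem _
  obtain ⟨u, hu⟩ := v.exists_unit_mul_zpow hf (unif_irreducible v)
  refine ⟨v.ord f, 1 ⊗ₜ (u : v.toValuationSubring), 1, by simp, ?_⟩
  conv_lhs => rw [hu]
  rw [map_one, mul_one, map_mul, map_zpow₀, localMap_tmul, map_one, one_mul, mul_comm]
  rfl

theorem exists_zpow_mul (g : F') (hg : g ≠ 0) :
    ∃ (k : ℤ) (a u : L ⊗[K] v.toValuationSubring), localEval K L F v a ≠ 0 ∧
      localEval K L F v u ≠ 0 ∧
      g * localMap K L F F' v u = unif' F' v ^ k * localMap K L F F' v a := by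
  obtain ⟨k, a, u, hu, h⟩ : g ∈ localFracField L F' v := by
    rw [localFracField_eq_top]; trivial
  have ha : a ≠ 0 := by
    rintro rfl
    rw [map_zero, mul_zero] at h
    exact mul_ne_zero hg (localMap_ne_zero v hu) h
  obtain ⟨n, a', ha', rfl⟩ := exists_eq_pow_mul v ha (unif_irreducible v)
  refine ⟨k + n, a', u, ha', hu, ?_⟩
  rw [h, map_mul, localMap_unif_pow, zpow_add₀ (unif'_ne_zero F' v), zpow_natCast]
  ring

variable (L F') in
/-- The valuation ring of the extended place. -/
def extSubring : ValuationSubring F' where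
  carrier := {g | IsLocalAt L F' v g}
  zero_mem' := ⟨0, 1, by simp, by simp⟩
  one_mem' := ⟨1, 1, by simp, by simp⟩
  neg_mem' := by
    rintro x ⟨a, u, hu, h⟩
    exact ⟨-a, u, hu, by rw [map_neg, neg_mul, h]⟩
  mul_mem' := by
    rintro x y ⟨a, u, hu, h⟩ ⟨b, w, hw, h'⟩
    refine ⟨a * b, u * w, localEval_mul_ne_zero v hu hw, ?_⟩
    rw [map_mul, map_mul]
    linear_combination (y * localMap K L F F' v w) * h + localMap K L F F' v a * h'
  add_mem' := by
    rintro x y ⟨a, u, hu, h⟩ ⟨b, w, hw, h'⟩
    refine ⟨a * w + b * u, u * w, localEval_mul_ne_zero v hu hw, ?_⟩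
    rw [map_add, map_mul, map_mul, map_mul]
    linear_combination (localMap K L F F' v w) * h + localMap K L F F' v u * h'
  mem_or_inv_mem' := by
    intro g
    rcases eq_or_ne g 0 with rfl | hg
    · exact Or.inl ⟨0, 1, by simp, by simp⟩
    obtain ⟨k, a, u, ha, hu, h⟩ := exists_zpow_mul (K := K) (L := L) (F' := F') v g hg
    obtain ⟨n, rfl | rfl⟩ := Int.eq_nat_or_neg k
    · exact Or.inl ⟨(1 ⊗ₜ unif v) ^ n * a, u, hu, by
        rw [map_mul, localMap_unif_pow, h, zpow_natCast]⟩
    · refine Or.inr ⟨(1 ⊗ₜ unif v) ^ n * u, a, ha, ?_⟩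
      rw [map_mul, localMap_unif_pow]
      have h2 : unif' F' v ^ n ≠ 0 := pow_ne_zero _ (unif'_ne_zero F' v)
      rw [zpow_neg, zpow_natCast] at h
      field_simp at h ⊢
      linear_combination -h

theorem mem_extSubring {g : F'} : g ∈ extSubring L F' v ↔ IsLocalAt L F' v g := Iff.rfl

theorem isUnit_of_localEval_ne_zero {a u : L ⊗[K] v.toValuationSubring}
    (ha : localEval K L F v a ≠ 0) (hu : localEval K L F v u ≠ 0) :
    ∃ x : (extSubring L F' v)ˣ, ((x : extSubring L F' v) : F') =
      localMap K L F F' v a * (localMap K L F F' v u)⁻¹ := by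
  refine ⟨⟨⟨_, isLocalAt_localMap_mul_inv v (a := a) hu⟩,
    ⟨_, isLocalAt_localMap_mul_inv v (a := u) ha⟩, ?_, ?_⟩, rfl⟩
  all_goals
    apply Subtype.ext
    have := localMap_ne_zero (F' := F') v ha
    have := localMap_ne_zero (F' := F') v hu
    show (_ : F') * _ = 1
    field_simp

theorem unif'_mem : unif' F' v ∈ extSubring L F' v :=
  ⟨1 ⊗ₜ unif v, 1, by simp, by simp [unif']⟩

variable (L F') in
/-- The chosen uniformizer in the extended valuation ring. -/
def extUnif : extSubring L F' v := ⟨unif' F' v, unif'_mem v⟩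

theorem extUnif_not_isUnit : ¬ IsUnit (extUnif L F' v) := by
  intro h
  obtain ⟨y, hy⟩ := h.exists_right_inv
  obtain ⟨a, u, hu, hau⟩ := y.2
  have hy' : unif' F' v * (y : F') = 1 := congrArg Subtype.val hy
  have hmap : localMap K L F F' v u = localMap K L F F' v ((1 ⊗ₜ unif v) ^ 1 * a) := by
    rw [map_mul, localMap_unif_pow, pow_one, ← hau, ← mul_assoc, hy', one_mul]
  have h2 := congrArg (localEval K L F v) (localMap_injective v hmap)
  rw [map_mul, pow_one, localEval_tmul] at h2
  rw [(evalAt_eq_zero_iff v _).mpr (IsLocalRing.mem_maximalIdeal _ |>.mpr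
    (unif_irreducible v).not_isUnit), map_zero, mul_zero, zero_mul] at h2
  exact hu h2

theorem exists_unit_mul_pow (x : extSubring L F' v) (hx : x ≠ 0) :
    ∃ (n : ℕ) (u : (extSubring L F' v)ˣ), x = u * extUnif L F' v ^ n := by
  obtain ⟨a, u, hu, h⟩ := x.2
  have ha : a ≠ 0 := by
    rintro rfl
    rw [map_zero] at h
    exact mul_ne_zero (by simpa using hx) (localMap_ne_zero v hu) h
  obtain ⟨n, a', ha', rfl⟩ := exists_eq_pow_mul v ha (unif_irreducible v)
  obtain ⟨e, he⟩ := isUnit_of_localEval_ne_zero (F' := F') v ha' hu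
  refine ⟨n, e, Subtype.ext ?_⟩
  simp only [MulMemClass.coe_mul, SubmonoidClass.coe_pow, he, extUnif]
  rw [map_mul, localMap_unif_pow] at h
  have := localMap_ne_zero (F' := F') v hu
  field_simp
  linear_combination h

theorem extUnif_irreducible : Irreducible (extUnif L F' v) := by
  refine ⟨extUnif_not_isUnit v, fun a b hab => ?_⟩
  have hne : extUnif L F' v ≠ 0 := fun h => unif'_ne_zero F' v (congrArg Subtype.val h)
  have ha : a ≠ 0 := fun h => hne (by rw [hab, h, zero_mul])
  have hb : b ≠ 0 := fun h => hne (by rw [hab, h, mul_zero])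
  obtain ⟨n, u, rfl⟩ := exists_unit_mul_pow v a ha
  obtain ⟨m, w, rfl⟩ := exists_unit_mul_pow v b hb
  rcases n with _ | n
  · exact Or.inl (by simp)
  rcases m with _ | m
  · exact Or.inr (by simp)
  exfalso
  refine extUnif_not_isUnit v (IsUnit.of_mul_eq_one
    ((u : extSubring L F' v) * (w : extSubring L F' v) * extUnif L F' v ^ (n + m)) (mul_left_cancel₀ hne ?_))
  rw [mul_one]
  conv_rhs => rw [hab]
  ring

variable (L F') in
/-- The place of `F'` over `L` extending the rational place `v`. -/
def extPlace : Place L F' where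
  toValuationSubring := extSubring L F' v
  algebraMap_mem' c := ⟨c ⊗ₜ 1, 1, by simp, by simp⟩
  ne_top' h := extUnif_not_isUnit v <| by
    have hm : (unif' F' v)⁻¹ ∈ extSubring L F' v := by rw [h]; trivial
    exact IsUnit.of_mul_eq_one ⟨_, hm⟩ (Subtype.ext (mul_inv_cancel₀ (unif'_ne_zero F' v)))
  isPrincipalIdealRing' :=
    isPrincipalIdealRing_of_forall_exists_pow _ (exists_unit_mul_pow v)

theorem ord_extPlace_eq {g : F'} {k : ℤ} {a u : L ⊗[K] v.toValuationSubring}
    (ha : localEval K L F v a ≠ 0) (hu : localEval K L F v u ≠ 0)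
    (h : g * localMap K L F F' v u = unif' F' v ^ k * localMap K L F F' v a) :
    (extPlace L F' v).ord g = k := by
  obtain ⟨e, he⟩ := isUnit_of_localEval_ne_zero (F' := F') v ha hu
  have hg : g = ((e : extSubring L F' v) : F') * ((extUnif L F' v : F') ^ k) := by
    rw [he]
    simp only [extUnif]
    have := localMap_ne_zero (F' := F') v hu
    field_simp
    linear_combination h
  rw [hg]
  exact (extPlace L F' v).ord_unit_smul_zpow e (extUnif_irreducible v) k

theorem ord_extPlace_algebraMap (f : F) :
    (extPlace L F' v).ord (algebraMap F F' f) = v.ord f := by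
  rcases eq_or_ne f 0 with rfl | hf
  · simp
  obtain ⟨u, hu⟩ := v.exists_unit_mul_zpow hf (unif_irreducible v)
  refine ord_extPlace_eq v (a := 1 ⊗ₜ (u : v.toValuationSubring)) (u := 1) ?_ (by simp) ?_
  · simpa using (evalAt_ne_zero_iff v _).mpr u.isUnit
  · conv_lhs => rw [hu]
    rw [map_one, mul_one, map_mul, map_zpow₀, localMap_tmul, map_one, one_mul, mul_comm]
    rfl

theorem algebraMap_mem_extPlace_iff (f : F) :
    algebraMap F F' f ∈ (extPlace L F' v).toValuationSubring ↔ f ∈ v.toValuationSubring := by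
  rcases eq_or_ne f 0 with rfl | hf
  · simp
  rw [mem_iff_ord_nonneg' _ (by simpa using hf), mem_iff_ord_nonneg' _ hf,
    ord_extPlace_algebraMap]

theorem comap_extPlace :
    (extPlace L F' v).toValuationSubring.comap (algebraMap F F') = v.toValuationSubring :=
  SetLike.ext fun f => algebraMap_mem_extPlace_iff v f

theorem extPlace_injective : Function.Injective (extPlace L F' : Place K F → Place L F') :=
  fun v w h => Place.ext (by rw [← comap_extPlace (L := L) (F' := F') v, h, comap_extPlace])

theorem extPlace_residue_surjective :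
    Function.Surjective (algebraMap L (extPlace L F' v).ResidueField) := by
  intro x
  obtain ⟨g, rfl⟩ := IsLocalRing.residue_surjective x
  obtain ⟨a, u, hu, h⟩ := g.2
  refine ⟨localEval K L F v a / localEval K L F v u, ?_⟩
  rw [IsScalarTower.algebraMap_apply L (extPlace L F' v).toValuationSubring
    (extPlace L F' v).ResidueField, IsLocalRing.ResidueField.algebraMap_eq]
  rw [← sub_eq_zero, ← map_sub, IsLocalRing.residue_eq_zero_iff]
  set c := localEval K L F v a / localEval K L F v u with hc
  have h0 : localEval K L F v (c ⊗ₜ 1 * u - a) = 0 := by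
    rw [map_sub, map_mul, localEval_tmul, map_one, map_one, mul_one, hc, div_mul_cancel₀ _ hu,
      sub_self]
  obtain ⟨b, hb⟩ := exists_eq_mul_of_localEval_eq_zero v h0 (unif_irreducible v)
  have key : algebraMap L (extPlace L F' v).toValuationSubring c - g =
      (⟨unif' F' v, unif'_mem v⟩ : (extPlace L F' v).toValuationSubring) *
        ⟨_, isLocalAt_localMap_mul_inv v (a := b) hu⟩ := by
    apply Subtype.ext
    show algebraMap L F' c - (g : F') = unif' F' v *
      (localMap K L F F' v b * (localMap K L F F' v u)⁻¹)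
    have h' := congrArg (localMap K L F F' v) hb
    rw [map_sub, map_mul, map_mul, localMap_tmul, localMap_tmul] at h'
    simp only [OneMemClass.coe_one, map_one, mul_one, one_mul] at h'
    have hne := localMap_ne_zero (F' := F') v hu
    rw [← h] at h'
    field_simp
    unfold unif'
    linear_combination h'
  rw [key]
  exact Ideal.mul_mem_right _ _
    ((IsLocalRing.mem_maximalIdeal _).mpr (extUnif_not_isUnit v))

theorem deg_extPlace : (extPlace L F' v).deg = 1 := by
  have hbij : Function.Bijective (algebraMap L (extPlace L F' v).ResidueField) :=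
    ⟨(algebraMap L _).injective, extPlace_residue_surjective v⟩
  rw [Place.deg, ← Module.finrank_self L]
  exact ((AlgEquiv.ofBijective (Algebra.ofId L _) hbij).toLinearEquiv.finrank_eq).symm

/-- A place of `F'` with centre the maximal ideal of `v` on `O_v` is `extPlace v`. -/
theorem eq_extPlace (w : Place L F')
    (hO : ∀ f ∈ v.toValuationSubring, algebraMap F F' f ∈ w.toValuationSubring)
    (hπ : (unif' F' v)⁻¹ ∉ w.toValuationSubring) : w = extPlace L F' v := by
  have hmem : ∀ a : L ⊗[K] v.toValuationSubring,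
      localMap K L F F' v a ∈ w.toValuationSubring := by
    intro a
    induction a using TensorProduct.induction_on with
    | zero => simp
    | tmul c f => rw [localMap_tmul]; exact mul_mem (w.algebraMap_mem' c) (hO _ f.2)
    | add a b ha hb => rw [map_add]; exact add_mem ha hb
  have hπm : (⟨unif' F' v, hO _ (unif v).2⟩ : w.toValuationSubring) ∈
      IsLocalRing.maximalIdeal w.toValuationSubring := by
    rw [IsLocalRing.mem_maximalIdeal, mem_nonunits_iff]
    intro hu
    obtain ⟨y, hy⟩ := hu.exists_right_inv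
    refine hπ ?_
    have : unif' F' v * (y : F') = 1 := congrArg Subtype.val hy
    rw [inv_eq_of_mul_eq_one_right this]
    exact y.2
  have hunit : ∀ u : L ⊗[K] v.toValuationSubring, localEval K L F v u ≠ 0 →
      (localMap K L F F' v u)⁻¹ ∈ w.toValuationSubring := by
    intro u hu
    have h0 : localEval K L F v (u - (localEval K L F v u) ⊗ₜ 1) = 0 := by simp
    obtain ⟨b, hb⟩ := exists_eq_mul_of_localEval_eq_zero v h0 (unif_irreducible v)
    have hU : IsUnit (⟨localMap K L F F' v u, hmem u⟩ : w.toValuationSubring) := by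
      by_contra hU
      have h1 : (⟨localMap K L F F' v u, hmem u⟩ : w.toValuationSubring) -
          algebraMap L w.toValuationSubring (localEval K L F v u) =
          ⟨unif' F' v, hO _ (unif v).2⟩ * ⟨localMap K L F F' v b, hmem b⟩ := by
        apply Subtype.ext
        have h2 := congrArg (localMap K L F F' v) hb
        rw [map_sub, map_mul, localMap_tmul, localMap_tmul] at h2
        simp only [OneMemClass.coe_one, map_one, mul_one, one_mul] at h2
        exact h2
      have h3 : algebraMap L w.toValuationSubring (localEval K L F v u) ∈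
          IsLocalRing.maximalIdeal w.toValuationSubring := by
        rw [show algebraMap L w.toValuationSubring (localEval K L F v u) =
          (⟨localMap K L F F' v u, hmem u⟩ : w.toValuationSubring) -
            ⟨unif' F' v, hO _ (unif v).2⟩ * ⟨localMap K L F F' v b, hmem b⟩ by rw [← h1]; ring]
        exact sub_mem ((IsLocalRing.mem_maximalIdeal _).mpr hU) (Ideal.mul_mem_right _ _ hπm)
      exact (IsLocalRing.mem_maximalIdeal _).mp h3 ((isUnit_iff_ne_zero.mpr hu).map _)
    obtain ⟨y, hy⟩ := hU.exists_right_inv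
    have : localMap K L F F' v u * (y : F') = 1 := congrArg Subtype.val hy
    rw [inv_eq_of_mul_eq_one_right this]
    exact y.2
  apply Place.ext
  refine SetLike.ext fun g => ⟨fun hg => ?_, fun hg => ?_⟩
  · rcases eq_or_ne g 0 with rfl | hg0
    · exact zero_mem _
    obtain ⟨k, a, u, ha, hu, h⟩ := exists_zpow_mul (K := K) (L := L) (F' := F') v g hg0
    rw [mem_iff_ord_nonneg' _ hg0, ord_extPlace_eq v ha hu h]
    by_contra hk
    obtain ⟨n, rfl⟩ : ∃ n : ℕ, k = -((n : ℤ) + 1) := ⟨(-k - 1).toNat, by omega⟩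
    apply hπ
    have e : (unif' F' v)⁻¹ = g * localMap K L F F' v u * (localMap K L F F' v a)⁻¹ *
        unif' F' v ^ n := by
      rw [h, zpow_neg, zpow_add_one₀ (unif'_ne_zero F' v), zpow_natCast]
      have h2 : unif' F' v ≠ 0 := unif'_ne_zero F' v
      have := localMap_ne_zero (F' := F') v ha
      field_simp
    rw [e]
    exact mul_mem (mul_mem (mul_mem hg (hmem u)) (hunit a ha)) (pow_mem (hO _ (unif v).2) n)
  · obtain ⟨a, u, hu, h⟩ := hg
    rw [show g = localMap K L F F' v a * (localMap K L F F' v u)⁻¹ by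
      rw [← h, mul_assoc, mul_inv_cancel₀ (localMap_ne_zero v hu), mul_one]]
    exact mul_mem (hmem a) (hunit u hu)

theorem eq_extPlace_of_comap_eq (w : Place L F')
    (h : w.toValuationSubring.comap (algebraMap F F') = v.toValuationSubring) :
    w = extPlace L F' v := by
  refine eq_extPlace v w (fun f hf => ?_) ?_
  · rw [← h] at hf
    exact ValuationSubring.mem_comap.mp hf
  · intro hmem
    rw [unif', ← map_inv₀, ← ValuationSubring.mem_comap, h] at hmem
    exact (unif_irreducible v).not_isUnit (IsUnit.of_mul_eq_one ⟨_, hmem⟩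
      (Subtype.ext (mul_inv_cancel₀ (by simpa using (unif_irreducible v).ne_zero))))

omit v in
/-- A place of `F'` which is nontrivial on `F` comes from a place of `F`. -/
theorem exists_extPlace_eq (w : Place L F')
    (hw : ∃ f : F, w.ord (algebraMap F F' f) ≠ 0) : ∃ v : Place K F, extPlace L F' v = w := by
  classical
  set A := w.toValuationSubring.comap (algebraMap F F') with hA
  have hpos : ∃ d : ℕ, 0 < d ∧ ∃ f : F, w.ord (algebraMap F F' f) = d := by
    obtain ⟨f, hf⟩ := hw
    refine ⟨(w.ord (algebraMap F F' f)).natAbs, by omega, ?_⟩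
    rcases lt_or_gt_of_ne hf with h | h
    · exact ⟨f⁻¹, by rw [map_inv₀, w.ord_inv]; omega⟩
    · exact ⟨f, by omega⟩
  obtain ⟨hd, π, hπ⟩ := Nat.find_spec hpos
  set d := Nat.find hpos
  have hπ0 : π ≠ 0 := by rintro rfl; simp at hπ; omega
  have hmemA : ∀ {f : F}, f ≠ 0 → (f ∈ A ↔ 0 ≤ w.ord (algebraMap F F' f)) := fun hf => by
    rw [hA, ValuationSubring.mem_comap]
    exact mem_iff_ord_nonneg' w (by simpa using hf)
  have hπA : π ∈ A := (hmemA hπ0).mpr (by omega)
  have hdvd : ∀ f : F, f ≠ 0 → (d : ℤ) ∣ w.ord (algebraMap F F' f) := by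
    intro f hf
    by_contra hnd
    set q := w.ord (algebraMap F F' f) / d with hq
    have h1 : w.ord (algebraMap F F' (f * π ^ (-q))) = w.ord (algebraMap F F' f) % d := by
      rw [map_mul, map_zpow₀, w.ord_mul (by simpa using hf)
        (zpow_ne_zero _ (by simpa using hπ0)), w.ord_zpow, hπ, hq]
      rw [Int.emod_def]; ring
    have h2 := Int.emod_lt_of_pos (w.ord (algebraMap F F' f)) (Int.ofNat_lt.mpr hd)
    have h3 := Int.emod_nonneg (w.ord (algebraMap F F' f)) (b := (d : ℤ)) (by omega)
    have h4 : w.ord (algebraMap F F' f) % d ≠ 0 := fun h => hnd (Int.dvd_of_emod_eq_zero h)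
    have := Nat.find_min' hpos (m := (w.ord (algebraMap F F' f) % d).toNat)
      ⟨by omega, f * π ^ (-q), by rw [h1]; omega⟩
    omega
  have hpow : ∀ x : A, x ≠ 0 → ∃ (n : ℕ) (u : Aˣ), x = u * (⟨π, hπA⟩ : A) ^ n := by
    rintro ⟨f, hf⟩ hx
    have hf0 : f ≠ 0 := fun h => hx (Subtype.ext h)
    obtain ⟨q, hq⟩ := hdvd f hf0
    have hq0 : 0 ≤ q := by
      by_contra h
      have := (hmemA hf0).mp hf
      nlinarith
    obtain ⟨n, rfl⟩ := Int.eq_ofNat_of_zero_le hq0
    have hu0 : w.ord (algebraMap F F' (f / π ^ n)) = 0 := by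
      rw [div_eq_mul_inv, map_mul, map_inv₀, map_pow, w.ord_mul (by simpa using hf0)
        (inv_ne_zero (pow_ne_zero _ (by simpa using hπ0))), w.ord_inv, ← zpow_natCast,
        w.ord_zpow, hπ, hq]
      ring
    have hne : f / π ^ n ≠ 0 := div_ne_zero hf0 (pow_ne_zero _ hπ0)
    refine ⟨n, ⟨⟨f / π ^ n, (hmemA hne).mpr hu0.ge⟩,
      ⟨(f / π ^ n)⁻¹, (hmemA (inv_ne_zero hne)).mpr (by rw [map_inv₀, w.ord_inv]; omega)⟩,
      Subtype.ext (mul_inv_cancel₀ hne), Subtype.ext (inv_mul_cancel₀ hne)⟩, Subtype.ext ?_⟩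
    show f = f / π ^ n * π ^ n
    rw [div_mul_cancel₀ _ (pow_ne_zero _ hπ0)]
  let v : Place K F :=
    { toValuationSubring := A
      algebraMap_mem' := fun c => by
        rw [hA, ValuationSubring.mem_comap, ← IsScalarTower.algebraMap_apply K F F',
          IsScalarTower.algebraMap_apply K L F']
        exact w.algebraMap_mem' _
      ne_top' := fun htop => by
        have : π⁻¹ ∈ A := by rw [htop]; trivial
        rw [hmemA (inv_ne_zero hπ0), map_inv₀, w.ord_inv, hπ] at this
        omega
      isPrincipalIdealRing' := isPrincipalIdealRing_of_forall_exists_pow _ hpow }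
  exact ⟨v, (eq_extPlace_of_comap_eq v w rfl).symm⟩

end Fermat.Agent.FF.ConstExt

end
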