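import Fermat.Agent.FF.Basic
import Fermat.Agent.FF.ConstExt.Place
import Mathlib.RingTheory.TensorProduct.Free
import Mathlib.RingTheory.Trace.Basic

/-!
# Constant field extensions and the rational function subfield

If `e` is a basis of `F` over `K(x)`, its image is a basis of `F'` over `L(x)`, with the same
matrices of multiplication, hence the same traces. In particular `F'` is again a function field.
-/

set_option autoImplicit false
set_option linter.unusedSectionVars false

noncomputable section

open scoped TensorProduct
open AlgebraicCurve IntermediateField Polynomial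

namespace Fermat.Agent.FF.ConstExt

variable {K F : Type*} [Field K] [Field F] [Algebra K F]
variable {L F' : Type*} [Field L] [Field F']
  [Algebra K L] [Algebra L F'] [Algebra F F'] [Algebra K F']
  [IsScalarTower K L F'] [IsScalarTower K F F'] [IsConstExt K L F F']

theorem linearIndependent_algebraMap {ι : Type*} {f : ι → F} (hf : LinearIndependent K f) :
    LinearIndependent L (fun i => algebraMap F F' (f i)) := by
  classical
  rw [linearIndependent_iff']
  intro s g hg i hi
  obtain ⟨ψ, hψ⟩ := (Finsupp.linearCombination K f).exists_leftInverse_of_injective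
    (LinearMap.ker_eq_bot.mpr hf)
  let φ : F →ₗ[K] K := (Finsupp.lapply i).comp ψ
  have hφ : ∀ j, φ (f j) = if j = i then 1 else 0 := fun j => by
    have := LinearMap.congr_fun hψ (Finsupp.single j 1)
    simp only [LinearMap.comp_apply, Finsupp.linearCombination_single, one_smul,
      LinearMap.id_apply] at this
    simp [φ, this, Finsupp.single_apply]
  have h0 : ∑ j ∈ s, g j ⊗ₜ[K] f j = 0 :=
    IsConstExt.mulMap_injective (K := K) (L := L) (F := F) (F' := F') (by
      rw [map_sum, map_zero, ← hg]
      exact Finset.sum_congr rfl fun j _ => by rw [mulMap_tmul, Algebra.smul_def])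
  have h1 := congrArg (fun t => TensorProduct.rid K L (φ.lTensor L t)) h0
  simpa [map_sum, hφ, hi] using h1

theorem transcendental_algebraMap {x : F} (hx : Transcendental K x) :
    Transcendental L (algebraMap F F' x) := by
  rw [transcendental_iff]
  intro p hp
  have hli : LinearIndependent K (fun n : ℕ => x ^ n) := by
    rw [linearIndependent_iff]
    intro c hc
    have hc' : aeval x (⟨AddMonoidAlgebra.ofCoeff c⟩ : K[X]) = 0 := by
      rw [aeval_def, eval₂_eq_sum, Polynomial.sum]
      simpa [Finsupp.linearCombination_apply, Finsupp.sum, Polynomial.support,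
        Polynomial.coeff, Algebra.smul_def] using hc
    have := congrArg Polynomial.toFinsupp (transcendental_iff.mp hx _ hc')
    simpa using this
  have h' := linearIndependent_iff'.mp (linearIndependent_algebraMap (L := L) (F' := F') hli)
    p.support (fun n => p.coeff n) (by
      rw [← hp, aeval_def, eval₂_eq_sum, Polynomial.sum]
      simp [Algebra.smul_def, map_pow])
  ext n
  by_cases hn : n ∈ p.support
  · simpa using h' n hn
  · simpa [Polynomial.mem_support_iff] using hn

variable (L F') in
/-- The inclusion `K(x) → L(x)`. -/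
def adjoinMap (x : F) : K⟮x⟯ →+* L⟮algebraMap F F' x⟯ :=
  ((algebraMap F F').comp (K⟮x⟯).val.toRingHom).codRestrict _ fun a => by
    have h : K⟮x⟯ ≤
        ((L⟮algebraMap F F' x⟯).restrictScalars K).comap (IsScalarTower.toAlgHom K F F') := by
      rw [adjoin_le_iff, Set.singleton_subset_iff]
      exact mem_adjoin_simple_self L (algebraMap F F' x)
    exact h a.2

@[simp]
theorem coe_adjoinMap (x : F) (a : K⟮x⟯) :
    (adjoinMap L F' x a : F') = algebraMap F F' (a : F) := rfl

variable {x : F} {ι : Type*} [Fintype ι]

theorem algebraMap_smul_adjoin (a : K⟮x⟯) (f : F) :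
    algebraMap F F' (a • f) = adjoinMap L F' x a • algebraMap F F' f := by
  rw [IntermediateField.smul_def, IntermediateField.smul_def, smul_eq_mul, map_mul,
    coe_adjoinMap, smul_eq_mul]

theorem linearIndependent_basis_image (hx : Transcendental K x) (e : Module.Basis ι K⟮x⟯ F) :
    LinearIndependent L⟮algebraMap F F' x⟯ (fun i => algebraMap F F' (e i)) := by
  refine linearIndependent_adjoin_of_polynomial (transcendental_algebraMap hx) _ fun p hp => ?_
  classical
  have hli : LinearIndependent K (fun ni : ℕ × ι => x ^ ni.1 * e ni.2) := by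
    rw [linearIndependent_iff']
    intro s g hg ⟨n₀, i₀⟩ hni
    set q : ι → K[X] := fun i => ∑ ni ∈ s.filter (fun ni => ni.2 = i), monomial ni.1 (g ni) with hq
    have hq0 : ∑ i, (⟨aeval x (q i), algebra_adjoin_le_adjoin _ _
        (Polynomial.aeval_mem_adjoin_singleton K x)⟩ : K⟮x⟯) • e i = 0 := by
      rw [← hg, ← Finset.sum_fiberwise s (fun ni => ni.2)
        (fun ni => g ni • (x ^ ni.1 * e ni.2))]
      refine Finset.sum_congr rfl fun i _ => ?_
      simp only [IntermediateField.smul_def, smul_eq_mul, hq, map_sum, Finset.sum_mul]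
      refine Finset.sum_congr rfl fun ni hni => ?_
      rw [(Finset.mem_filter.mp hni).2, aeval_monomial, Algebra.smul_def, mul_assoc]
    have h1 : aeval x (q i₀) = 0 :=
      congrArg Subtype.val (Fintype.linearIndependent_iff.mp e.linearIndependent _ hq0 i₀)
    have h2 := congrArg (fun r => Polynomial.coeff r n₀) (transcendental_iff.mp hx _ h1)
    simp only [hq, Polynomial.finsetSum_coeff, Polynomial.coeff_monomial, Polynomial.coeff_zero] at h2
    rw [Finset.sum_eq_single (n₀, i₀)] at h2
    · simpa using h2
    · rintro ⟨n, i⟩ hmem hne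
      obtain rfl : i = i₀ := (Finset.mem_filter.mp hmem).2
      rw [if_neg]
      rintro rfl
      exact hne rfl
    · exact fun h => absurd (Finset.mem_filter.mpr ⟨hni, rfl⟩ :
        (n₀, i₀) ∈ Finset.filter (fun ni : ℕ × ι => ni.2 = i₀) s) h
  intro i
  ext n
  by_cases hn : n ∈ (p i).support
  · have hsum : ∑ ni ∈ ((Finset.univ : Finset ι).biUnion fun j =>
        (p j).support.image fun m => (m, j)),
          (p ni.2).coeff ni.1 • algebraMap F F' (x ^ ni.1 * e ni.2) = 0 := by
      rw [Finset.sum_biUnion]
      · rw [← hp]
        refine Finset.sum_congr rfl fun j _ => ?_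
        rw [Finset.sum_image (fun a _ b _ h => congrArg Prod.fst h), aeval_def, eval₂_eq_sum, Polynomial.sum,
          Finset.sum_mul]
        exact Finset.sum_congr rfl fun m _ => by
          rw [Algebra.smul_def, map_mul, map_pow]; ring
      · intro a _ b _ hab
        simp only [Function.onFun, Finset.disjoint_left, Finset.mem_image]
        rintro _ ⟨m, -, rfl⟩ ⟨m', -, h⟩
        exact hab (congrArg Prod.snd h).symm
    exact linearIndependent_iff'.mp (linearIndependent_algebraMap (L := L) (F' := F') hli)
      _ _ hsum (n, i) (Finset.mem_biUnion.mpr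
        ⟨i, Finset.mem_univ _, Finset.mem_image.mpr ⟨n, hn, rfl⟩⟩)
  · simpa [Polynomial.mem_support_iff] using hn

theorem span_basis_image_eq_top (e : Module.Basis ι K⟮x⟯ F) :
    Submodule.span L⟮algebraMap F F' x⟯ (Set.range fun i => algebraMap F F' (e i)) = ⊤ := by
  set M := Submodule.span L⟮algebraMap F F' x⟯ (Set.range fun i => algebraMap F F' (e i)) with hM
  have himage : ∀ f : F, algebraMap F F' f ∈ M := fun f => by
    rw [← e.sum_repr f, map_sum]
    refine Submodule.sum_mem _ fun i _ => ?_
    rw [algebraMap_smul_adjoin (L := L)]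
    exact Submodule.smul_mem _ _ (Submodule.subset_span ⟨i, rfl⟩)
  have h1 : (1 : F') ∈ M := by simpa using himage 1
  have hmul : ∀ a b, a ∈ M → b ∈ M → a * b ∈ M := by
    intro a b ha hb
    have hab := Submodule.mul_mem_mul ha hb
    rw [hM, Submodule.span_mul_span] at hab
    refine (Submodule.span_le.mpr ?_) hab
    rintro _ ⟨_, ⟨i, rfl⟩, _, ⟨j, rfl⟩, rfl⟩
    show algebraMap F F' (e i) * algebraMap F F' (e j) ∈ M
    rw [← map_mul]
    exact himage _
  let A := M.toSubalgebra h1 hmul
  have : Module.Finite L⟮algebraMap F F' x⟯ M :=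
    FiniteDimensional.span_of_finite _ (Set.finite_range _)
  have : Module.Finite L⟮algebraMap F F' x⟯ A := this
  have hinv : ∀ y ∈ A, y⁻¹ ∈ A := fun y hy =>
    A.inv_mem_of_algebraic (x := ⟨y, hy⟩) <| by
      have : IsAlgebraic L⟮algebraMap F F' x⟯ (⟨y, hy⟩ : A) :=
        (IsIntegral.of_finite _ _).isAlgebraic
      exact this.algHom A.val
  let E : IntermediateField L⟮algebraMap F F' x⟯ F' := A.toIntermediateField hinv
  have hE : E.restrictScalars L = ⊤ := top_unique <| by
    rw [← IsConstExt.adjoin_eq_top (K := K) (L := L) (F := F) (F' := F'), adjoin_le_iff]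
    rintro _ ⟨f, rfl⟩
    exact himage f
  exact eq_top_iff.mpr fun y _ => (SetLike.ext_iff.mp hE y).mpr trivial

variable (L F') in
/-- The image of a `K(x)`-basis of `F` is an `L(x)`-basis of `F'`. -/
def basisImage (hx : Transcendental K x) (e : Module.Basis ι K⟮x⟯ F) :
    Module.Basis ι L⟮algebraMap F F' x⟯ F' :=
  Module.Basis.mk (linearIndependent_basis_image hx e) (span_basis_image_eq_top e).ge

@[simp]
theorem basisImage_apply (hx : Transcendental K x) (e : Module.Basis ι K⟮x⟯ F) (i : ι) :
    basisImage L F' hx e i = algebraMap F F' (e i) :=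
  Module.Basis.mk_apply _ _ i

theorem basisImage_repr (hx : Transcendental K x) (e : Module.Basis ι K⟮x⟯ F) (f : F) (i : ι) :
    (basisImage L F' hx e).repr (algebraMap F F' f) i = adjoinMap L F' x (e.repr f i) := by
  classical
  conv_lhs => rw [← e.sum_repr f, map_sum, map_sum]
  rw [Finsupp.finsetSum_apply, Finset.sum_eq_single i]
  · rw [algebraMap_smul_adjoin (L := L), map_smul, ← basisImage_apply (L := L) (F' := F') hx e, Module.Basis.repr_self]
    simp
  · intro j _ hj
    rw [algebraMap_smul_adjoin (L := L), map_smul, ← basisImage_apply (L := L) (F' := F') hx e, Module.Basis.repr_self]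
    simp [hj]
  · simp

theorem trace_algebraMap_adjoin (hx : Transcendental K x) [FiniteDimensional K⟮x⟯ F] (f : F) :
    Algebra.trace L⟮algebraMap F F' x⟯ F' (algebraMap F F' f)
      = adjoinMap L F' x (Algebra.trace K⟮x⟯ F f) := by
  classical
  let e := Module.finBasis K⟮x⟯ F
  rw [Algebra.trace_eq_matrix_trace (basisImage L F' hx e), Algebra.trace_eq_matrix_trace e,
    Matrix.trace, Matrix.trace, map_sum]
  refine Finset.sum_congr rfl fun i _ => ?_
  rw [Matrix.diag_apply, Matrix.diag_apply, Algebra.leftMulMatrix_eq_repr_mul,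
    Algebra.leftMulMatrix_eq_repr_mul, basisImage_apply, ← map_mul, basisImage_repr]

theorem finiteDimensional_adjoin_image (hx : Transcendental K x) [FiniteDimensional K⟮x⟯ F] :
    FiniteDimensional L⟮algebraMap F F' x⟯ F' :=
  (basisImage L F' hx (Module.finBasis K⟮x⟯ F)).finiteDimensional_of_finite

theorem finrank_adjoin_image (hx : Transcendental K x) [FiniteDimensional K⟮x⟯ F] :
    Module.finrank L⟮algebraMap F F' x⟯ F' = Module.finrank K⟮x⟯ F := by
  rw [Module.finrank_eq_card_basis (basisImage L F' hx (Module.finBasis K⟮x⟯ F)),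
    Fintype.card_fin]

variable (K L F F') in
/-- A constant field extension of a function field is a function field. -/
theorem isFunctionField [IsFunctionField K F] : IsFunctionField L F' := by
  obtain ⟨y, hy, hfin⟩ := IsFunctionField.exists_transcendental (K := K) (F := F)
  exact ⟨algebraMap F F' y, transcendental_algebraMap hy, finiteDimensional_adjoin_image hy⟩

end Fermat.Agent.FF.ConstExt

end
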