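import Fermat.Agent.FF.ConstExt.Place
import Fermat.Prelude.Def_AlgebraicCurve_BaseChangeGalois

/-!
# Divisors and `Pic⁰` along a constant field extension

The maps `extDivisor : Divisor K F →+ Divisor L F'` and `extPic0 : Pic0 K F →+ Pic0 L F'`, and
their compatibility with semilinear automorphisms.
-/

set_option autoImplicit false
set_option linter.unusedSectionVars false

noncomputable section

open AlgebraicCurve

namespace Fermat.Agent.FF.ConstExt

variable {K F : Type*} [Field K] [Field F] [Algebra K F]
variable (L F' : Type*) [Field L] [Field F']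
  [Algebra K L] [Algebra L F'] [Algebra F F'] [Algebra K F']
  [IsScalarTower K L F'] [IsScalarTower K F F']
variable [RationalPlaces K F] [IsConstExt K L F F']

/-- Extension of divisors. -/
def extDivisor : Divisor K F →+ Divisor L F' :=
  Finsupp.mapDomain.addMonoidHom (extPlace L F')

@[simp]
theorem extDivisor_single (v : Place K F) (n : ℤ) :
    extDivisor L F' (Finsupp.single v n) = Finsupp.single (extPlace L F' v) n :=
  Finsupp.mapDomain_single

theorem extDivisor_apply_extPlace (D : Divisor K F) (v : Place K F) :
    extDivisor L F' D (extPlace L F' v) = D v :=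
  Finsupp.mapDomain_apply extPlace_injective D v

theorem extDivisor_apply_of_notMem_range (D : Divisor K F) {w : Place L F'}
    (hw : w ∉ Set.range (extPlace L F' : Place K F → Place L F')) :
    extDivisor L F' D w = 0 :=
  Finsupp.mapDomain_of_notMem_range D w hw

theorem extDivisor_injective :
    Function.Injective (extDivisor L F' : Divisor K F → Divisor L F') :=
  Finsupp.mapDomain_injective extPlace_injective

@[simp]
theorem degree_extDivisor (D : Divisor K F) :
    Divisor.degree (extDivisor L F' D) = Divisor.degree D := by
  induction D using Finsupp.induction with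
  | zero => simp
  | single_add v n D _ _ ih =>
    rw [map_add, map_add, map_add, ih, extDivisor_single, Divisor.degree_single,
      Divisor.degree_single, deg_extPlace, RationalPlaces.deg_eq_one v]

theorem ord_algebraMap_eq_zero_of_notMem_range {w : Place L F'}
    (hw : w ∉ Set.range (extPlace L F' : Place K F → Place L F')) (f : F) :
    w.ord (algebraMap F F' f) = 0 := by
  by_contra h
  exact hw (exists_extPlace_eq w ⟨f, h⟩)

theorem extDivisor_apply_eq_ord {D : Divisor K F} {f : F}
    (h : ∀ v : Place K F, D v = v.ord f) (w : Place L F') :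
    extDivisor L F' D w = w.ord (algebraMap F F' f) := by
  by_cases hw : w ∈ Set.range (extPlace L F' : Place K F → Place L F')
  · obtain ⟨v, rfl⟩ := hw
    rw [extDivisor_apply_extPlace, h, ord_extPlace_algebraMap]
  · rw [extDivisor_apply_of_notMem_range L F' D hw, ord_algebraMap_eq_zero_of_notMem_range L F' hw]

theorem extDivisor_mem_principal {D : Divisor K F}
    (hD : D ∈ Divisor.principal (K := K) (F := F)) :
    extDivisor L F' D ∈ Divisor.principal (K := L) (F := F') := by
  obtain ⟨f, hf, h⟩ := hD
  exact ⟨algebraMap F F' f, by simpa using hf, extDivisor_apply_eq_ord L F' h⟩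

/-- Extension of degree-zero divisors. -/
def extDegZero :
    Divisor.degZero (K := K) (F := F) →+ Divisor.degZero (K := L) (F := F') :=
  ((extDivisor L F').comp (AddSubgroup.subtype _)).codRestrict _ fun D => by
    show extDivisor L F' (D : Divisor K F) ∈ _
    rw [Divisor.mem_degZero, degree_extDivisor]
    exact D.2

@[simp]
theorem coe_extDegZero (D : Divisor.degZero (K := K) (F := F)) :
    (extDegZero L F' D : Divisor L F') = extDivisor L F' (D : Divisor K F) :=
  rfl

/-- The map on `Pic⁰` induced by a constant field extension. -/
def extPic0 : Pic0 K F →+ Pic0 L F' :=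
  QuotientAddGroup.map _ _ (extDegZero L F') fun D hD => by
    simp only [AddSubgroup.mem_comap, AddSubgroup.mem_addSubgroupOf, coe_extDegZero] at hD ⊢
    exact extDivisor_mem_principal L F' hD

@[simp]
theorem extPic0_mk (D : Divisor.degZero (K := K) (F := F)) :
    extPic0 L F' (Pic0.mk D) = Pic0.mk (extDegZero L F' D) :=
  rfl

theorem extPic0_injective_iff :
    Function.Injective (extPic0 L F' : Pic0 K F → Pic0 L F') ↔
      ∀ D ∈ Divisor.degZero (K := K) (F := F),
        extDivisor L F' D ∈ Divisor.principal (K := L) (F := F') →
          D ∈ Divisor.principal (K := K) (F := F) := by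
  rw [injective_iff_map_eq_zero]
  refine ⟨fun h D hD hp => ?_, fun h x hx => ?_⟩
  · have := h (Pic0.mk ⟨D, hD⟩) ((QuotientAddGroup.eq_zero_iff _).mpr hp)
    exact (QuotientAddGroup.eq_zero_iff (⟨D, hD⟩ : Divisor.degZero (K := K) (F := F))).mp this
  · obtain ⟨⟨D, hD⟩, rfl⟩ := Pic0.mk_surjective x
    exact (QuotientAddGroup.eq_zero_iff _).mpr
      (h D hD ((QuotientAddGroup.eq_zero_iff (extDegZero L F' ⟨D, hD⟩)).mp hx))

section Equivariance

open scoped Pointwise

variable {L F'}
variable (g : SemilinearAut L F') (h : SemilinearAut K F)

/-- `g` on `F'` and `h` on `F` are compatible. -/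
def IsCompatibleAut : Prop :=
  ∀ f : F, SemilinearAut.toRingAut g (algebraMap F F' f) =
    algebraMap F F' (SemilinearAut.toRingAut h f)

variable {g h}

theorem smul_extPlace (hgh : IsCompatibleAut g h) (v : Place K F) :
    g • extPlace L F' v = extPlace L F' (h • v) := by
  refine eq_extPlace_of_comap_eq _ _ (SetLike.ext fun f => ?_)
  rw [ValuationSubring.mem_comap, SemilinearAut.smul_toValuationSubring,
    SemilinearAut.smul_toValuationSubring,
    ValuationSubring.mem_pointwise_smul_iff_inv_smul_mem,
    ValuationSubring.mem_pointwise_smul_iff_inv_smul_mem,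
    SemilinearAut.inv_smul_def, SemilinearAut.inv_smul_def]
  have : (SemilinearAut.toRingAut g).symm (algebraMap F F' f) =
      algebraMap F F' ((SemilinearAut.toRingAut h).symm f) :=
    (RingEquiv.symm_apply_eq _).mpr (by rw [hgh, RingEquiv.apply_symm_apply])
  rw [this, algebraMap_mem_extPlace_iff]

theorem smul_extDivisor (hgh : IsCompatibleAut g h) (D : Divisor K F) :
    g • extDivisor L F' D = extDivisor L F' (h • D) := by
  induction D using Finsupp.induction with
  | zero => simp
  | single_add v n D _ _ ih =>
    rw [map_add, smul_add, smul_add, map_add, ih, extDivisor_single, SemilinearAut.smul_single,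
      SemilinearAut.smul_single, extDivisor_single, smul_extPlace hgh]

theorem smul_extPic0 (hgh : IsCompatibleAut g h) (x : Pic0 K F) :
    g • extPic0 L F' x = extPic0 L F' (h • x) := by
  obtain ⟨D, rfl⟩ := Pic0.mk_surjective x
  rw [SemilinearAut.pic0_smul_mk, extPic0_mk, extPic0_mk, SemilinearAut.pic0_smul_mk]
  exact congrArg Pic0.mk (Subtype.ext (smul_extDivisor hgh D))

end Equivariance

end Fermat.Agent.FF.ConstExt

end
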