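import Fermat.Agent.FF.Models
import Fermat.Agent.FF.Curve
import Fermat.Agent.FF.ConstExt.BaseField
import Fermat.Agent.FF.ConstExt.Divisor

/-!
# Riemann-Roch spaces under constant field extension

For a divisor `D` of `F`, the space `L(extDivisor D)` is the `L`-span of the image of `L(D)`.
Consequences: `finrank` is preserved and `extPic0` is injective.
-/

set_option autoImplicit false
set_option linter.unusedSectionVars false

noncomputable section

open scoped TensorProduct
open AlgebraicCurve IntermediateField Polynomial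

namespace Fermat.Agent.FF.ConstExt

variable {K F : Type*} [Field K] [Field F] [Algebra K F]

instance (priority := 100) rationalPlaces_of_isFunctionField [IsAlgClosed K]
    [IsFunctionField K F] : RationalPlaces K F :=
  ⟨fun v => v.deg_eq_one_of_isAlgClosed_of_finite⟩

/-- There is a polynomial in `x` vanishing to high order at given finite places. -/
theorem exists_polynomial_le_ord [RationalPlaces K F] {x : F} (hx : Transcendental K x)
    (D : Divisor K F) : ∃ q : K[X], q ≠ 0 ∧
      ∀ v : Place K F, 0 ≤ v.ord x → D v ≤ v.ord (aeval x q) := by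
  classical
  induction D using Finsupp.induction with
  | zero =>
    exact ⟨1, one_ne_zero, fun v _ => by simp⟩
  | single_add w n D hw hn ih =>
    obtain ⟨q, hq, hqD⟩ := ih
    by_cases hwx : 0 ≤ w.ord x
    · set c := evalAt w ⟨x, (mem_iff_ord_nonneg w).mpr hwx⟩ with hc
      have hne : x - algebraMap K F c ≠ 0 := fun h =>
        hx (sub_eq_zero.mp h ▸ isAlgebraic_algebraMap c)
      have h1 : 1 ≤ w.ord (x - algebraMap K F c) := by
        have h0 : evalAt w (⟨x, (mem_iff_ord_nonneg w).mpr hwx⟩ -
            algebraMap K w.toValuationSubring c) = 0 := by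
          rw [map_sub, AlgHom.commutes, ← hc]; simp
        rw [evalAt_eq_zero_iff, IsLocalRing.mem_maximalIdeal, mem_nonunits_iff,
          ← w.adicValuation_coe_eq_one_iff] at h0
        have hmem : x - algebraMap K F c ∈ w.toValuationSubring :=
          sub_mem ((mem_iff_ord_nonneg w).mpr hwx) (w.algebraMap_mem' c)
        have h2 := (mem_iff_ord_nonneg w).mp hmem
        rcases h2.lt_or_eq with h3 | h3
        · omega
        · exfalso; apply h0
          show w.adicValuation (x - algebraMap K F c) = 1
          rw [w.adicValuation_eq_exp_neg_ord hne, ← h3]; simp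
      refine ⟨(X - C c) ^ n.toNat * q,
        mul_ne_zero (pow_ne_zero _ (X_sub_C_ne_zero c)) hq, fun v hv => ?_⟩
      rw [map_mul, map_pow, map_sub, aeval_X, aeval_C,
        v.ord_mul (pow_ne_zero _ hne) (transcendental_iff.mp hx q |> fun h h0 => hq (h h0)),
        ord_pow, Finsupp.add_apply, Finsupp.single_apply]
      have hnn : 0 ≤ v.ord (x - algebraMap K F c) := (mem_iff_ord_nonneg v).mp
        (sub_mem ((mem_iff_ord_nonneg v).mpr hv) (v.algebraMap_mem' c))
      have hD := hqD v hv
      split_ifs with h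
      · subst h
        nlinarith [Int.self_le_toNat n, mul_le_mul_of_nonneg_left h1 (Int.natCast_nonneg n.toNat)]
      · nlinarith [mul_nonneg (Int.natCast_nonneg n.toNat) hnn]
    · refine ⟨q, hq, fun v hv => ?_⟩
      rw [Finsupp.add_apply, Finsupp.single_eq_of_ne (by rintro rfl; exact hwx hv), zero_add]
      exact hqD v hv

open scoped IntermediateField.algebraAdjoinAdjoin in
theorem exists_mem_adjoin_of_isIntegral {L F' : Type*} [Field L] [Field F'] [Algebra L F']
    {y : F'} (hy : Transcendental L y) {z : L⟮y⟯} (hz : IsIntegral (Algebra.adjoin L {y}) z) :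
    (z : F') ∈ Algebra.adjoin L {y} := by
  have : IsIntegrallyClosed (Algebra.adjoin L {y}) :=
    IsIntegrallyClosed.of_equiv (Polynomial.algEquivOfTranscendental L y hy).toRingEquiv
  obtain ⟨p, hp⟩ := IsIntegrallyClosed.isIntegral_iff.mp hz
  rw [← hp]
  exact p.2

variable {L F' : Type*} [Field L] [Field F']
  [Algebra K L] [Algebra L F'] [Algebra F F'] [Algebra K F']
  [IsScalarTower K L F'] [IsScalarTower K F F'] [IsConstExt K L F F']

variable [IsAlgClosed K] [IsFunctionField K F]

open scoped IntermediateField.algebraAdjoinAdjoin in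
/-- An element of `F'` whose poles are bounded by an extended divisor lies in `L ⊗ F`. -/
theorem mem_range_mulMap_of_mem_riemannRochSpace {D : Divisor K F} {g : F'}
    (hg : g ∈ riemannRochSpace (extDivisor L F' D)) :
    g ∈ (mulMap K L F F').range := by
  classical
  obtain ⟨x, hsep⟩ := Fermat.Agent.FF.exists_isSeparatingElement K F
  have hx := hsep.transcendental
  have := hsep.isSeparable
  have : FiniteDimensional K⟮x⟯ F := Fermat.Agent.FF.finiteDimensional_adjoin hx
  have : IsFunctionField L F' := isFunctionField (K := K) (L := L) (F := F) (F' := F')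
  set y := algebraMap F F' x with hy
  have hyT : Transcendental L y := transcendental_algebraMap hx
  have : FiniteDimensional L⟮y⟯ F' := finiteDimensional_adjoin_image hx
  let e := Module.finBasis K⟮x⟯ F
  let e' := basisImage L F' hx e
  let d := e.traceDual
  have hd : ∀ i j, Algebra.trace L⟮y⟯ F' (algebraMap F F' (d i) * e' j) =
      if j = i then 1 else 0 := fun i j => by
    rw [basisImage_apply, ← map_mul, trace_algebraMap_adjoin hx]
    have := e.trace_traceDual_mul i j
    rw [this]
    split_ifs <;> simp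
  have hc : ∀ i, Algebra.trace L⟮y⟯ F' (g * algebraMap F F' (d i)) = e'.repr g i := fun i => by
    conv_lhs => rw [← e'.sum_repr g, Finset.sum_mul, map_sum]
    rw [Finset.sum_eq_single i]
    · rw [smul_mul_assoc, map_smul, mul_comm, hd, if_pos rfl, smul_eq_mul, mul_one]
    · intro j _ hj
      rw [smul_mul_assoc, map_smul, mul_comm, hd, if_neg hj, smul_zero]
    · simp
  let S := (mulMap K L F F').range
  have hFS : ∀ f : F, algebraMap F F' f ∈ S := fun f => ⟨1 ⊗ₜ f, by simp⟩
  suffices h : ∀ i, (e'.repr g i : F') ∈ S by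
    rw [← e'.sum_repr g]
    refine Subalgebra.sum_mem _ fun i _ => ?_
    rw [IntermediateField.smul_def, smul_eq_mul, basisImage_apply]
    exact mul_mem (h i) (hFS _)
  intro i
  have hd0 : d i ≠ 0 := e.traceDual.ne_zero i
  obtain ⟨Dd, hDd, -⟩ := HasPrincipalDivisors.exists_divisor (K := K) (d i) hd0
  obtain ⟨q, hq, hqD⟩ := exists_polynomial_le_ord hx (D - Dd)
  have hqF : aeval x q ≠ 0 := fun h => hq (transcendental_iff.mp hx q h)
  set h := algebraMap F F' (aeval x q * d i) * g with hh
  have hint : IsIntegral (Algebra.adjoin L {y}) h := by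
    rw [Fermat.Agent.FF.isIntegral_adjoin_iff]
    intro w hw
    rcases eq_or_ne g 0 with hg0 | hg0
    · simp [hh, hg0]
    have hgw := ((mem_riemannRochSpace_iff.mp hg) w).resolve_left hg0
    rw [hh, w.ord_mul (by simpa using mul_ne_zero hqF hd0) hg0]
    by_cases hwr : w ∈ Set.range (extPlace L F' : Place K F → Place L F')
    · obtain ⟨v, rfl⟩ := hwr
      rw [hy, ord_extPlace_algebraMap] at hw
      rw [extDivisor_apply_extPlace] at hgw
      rw [ord_extPlace_algebraMap, v.ord_mul hqF hd0]
      have h1 := hqD v hw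
      rw [Finsupp.sub_apply, hDd v] at h1
      omega
    · rw [extDivisor_apply_of_notMem_range L F' D hwr] at hgw
      rw [ord_algebraMap_eq_zero_of_notMem_range L F' hwr]
      omega
  have htr : IsIntegral (Algebra.adjoin L {y}) (Algebra.trace L⟮y⟯ F' h) := by
    exact Algebra.isIntegral_trace hint
  obtain ⟨p, hp, hpe⟩ : ∃ p ∈ Algebra.adjoin L {y}, p = (Algebra.trace L⟮y⟯ F' h : F') :=
    ⟨_, exists_mem_adjoin_of_isIntegral hyT htr, rfl⟩
  have htr' : (Algebra.trace L⟮y⟯ F' h : F') =
      algebraMap F F' (aeval x q) * (e'.repr g i : F') := by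
    let a : L⟮y⟯ := adjoinMap L F' x ⟨aeval x q,
      algebra_adjoin_le_adjoin _ _ (Polynomial.aeval_mem_adjoin_singleton K x)⟩
    have ha : h = a • (g * algebraMap F F' (d i)) := by
      rw [hh, map_mul, IntermediateField.smul_def, smul_eq_mul]
      simp only [a, coe_adjoinMap]
      ring
    rw [ha, map_smul, hc, smul_eq_mul]
    rfl
  have hpS : p ∈ S := by
    have : Algebra.adjoin L {y} ≤ S := Algebra.adjoin_le (Set.singleton_subset_iff.mpr (hFS x))
    exact this hp
  have hcoef : (e'.repr g i : F') = algebraMap F F' (aeval x q)⁻¹ * p := by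
    rw [hpe, htr', ← mul_assoc, ← map_mul, inv_mul_cancel₀ hqF, map_one, one_mul]
  rw [hcoef]
  exact mul_mem (hFS _) hpS

/-- The coefficients of an element of `L ⊗ F` have at most its poles. -/
theorem le_ord_of_le_ord_mulMap {ι : Type*} {s : Finset ι} {b : ι → L}
    (hb : LinearIndependent K b) {f : ι → F} (v : Place K F) {n : ℤ}
    (hg : mulMap K L F F' (∑ i ∈ s, b i ⊗ₜ f i) = 0 ∨
      n ≤ (extPlace L F' v).ord (mulMap K L F F' (∑ i ∈ s, b i ⊗ₜ f i)))
    {i : ι} (hi : i ∈ s) (hfi : f i ≠ 0) : n ≤ v.ord (f i) := by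
  classical
  set t := s.filter fun j => f j ≠ 0
  obtain ⟨j₀, hj₀, hmin⟩ := t.exists_min_image (fun j => v.ord (f j))
    ⟨i, Finset.mem_filter.mpr ⟨hi, hfi⟩⟩
  set m := v.ord (f j₀)
  refine le_trans ?_ (hmin i (Finset.mem_filter.mpr ⟨hi, hfi⟩))
  set π := unif v
  have hπ0 : (π : F) ≠ 0 := by
    simpa [ZeroMemClass.coe_eq_zero] using (unif_irreducible v).ne_zero
  have hmem : ∀ j ∈ t, f j * (π : F) ^ (-m) ∈ v.toValuationSubring := fun j hj => by
    rw [mem_iff_ord_nonneg, v.ord_mul (Finset.mem_filter.mp hj).2 (zpow_ne_zero _ hπ0),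
      v.ord_zpow, v.ord_coe_irreducible (unif_irreducible v)]
    have := hmin j hj
    omega
  set a : L ⊗[K] v.toValuationSubring :=
    ∑ j ∈ t.attach, b j.1 ⊗ₜ[K] (⟨f j.1 * (π : F) ^ (-m), hmem j.1 j.2⟩ : v.toValuationSubring)
  have ha : localEval K L F v a ≠ 0 := by
    intro h
    simp only [a, map_sum, localEval_tmul] at h
    have h' : ∑ j ∈ t.attach, evalAt v ⟨f j.1 * (π : F) ^ (-m), hmem j.1 j.2⟩ • b j.1 = 0 := by
      rw [← h]
      exact Finset.sum_congr rfl fun j _ => by rw [Algebra.smul_def, mul_comm]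
    have hli : LinearIndependent K (fun j : t => b j.1) := hb.comp _ Subtype.val_injective
    have h1 := linearIndependent_iff'.mp hli _ _ h' ⟨j₀, hj₀⟩ (Finset.mem_attach _ _)
    refine (evalAt_ne_zero_iff v _).mpr ?_ h1
    rw [← v.adicValuation_coe_eq_one_iff]
    show v.adicValuation (f j₀ * (π : F) ^ (-m)) = 1
    rw [v.adicValuation_eq_exp_neg_ord
        (mul_ne_zero (Finset.mem_filter.mp hj₀).2 (zpow_ne_zero _ hπ0)),
      v.ord_mul (Finset.mem_filter.mp hj₀).2 (zpow_ne_zero _ hπ0), v.ord_zpow,
      v.ord_coe_irreducible (unif_irreducible v)]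
    simp [m]
  have hga : mulMap K L F F' (∑ j ∈ s, b j ⊗ₜ f j) * localMap K L F F' v 1 =
      unif' F' v ^ m * localMap K L F F' v a := by
    rw [map_one, mul_one]
    simp only [a, map_sum, localMap_tmul, mulMap_tmul, Finset.mul_sum]
    rw [Finset.sum_attach t (fun j => unif' F' v ^ m *
      (algebraMap L F' (b j) * algebraMap F F' (f j * (π : F) ^ (-m)))),
      ← Finset.sum_filter_of_ne (p := fun j => f j ≠ 0) (fun j _ hne h0 => hne (by simp [h0]))]
    refine Finset.sum_congr rfl fun j _ => ?_
    rw [map_mul, map_zpow₀, zpow_neg]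
    have h2 : unif' F' v ^ m ≠ 0 := zpow_ne_zero _ (unif'_ne_zero F' v)
    show _ = unif' F' v ^ m * (_ * (_ * (unif' F' v ^ m)⁻¹))
    field_simp
  have hne : mulMap K L F F' (∑ j ∈ s, b j ⊗ₜ f j) ≠ 0 := by
    intro h0
    rw [h0, zero_mul] at hga
    rcases mul_eq_zero.mp hga.symm with h | h
    · exact zpow_ne_zero _ (unif'_ne_zero F' v) h
    · exact localMap_ne_zero v ha h
  rw [← ord_extPlace_eq v ha (by simp) hga]
  exact hg.resolve_left hne

theorem algebraMap_mem_riemannRochSpace_extDivisor {D : Divisor K F} {f : F}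
    (hf : f ∈ riemannRochSpace D) :
    algebraMap F F' f ∈ riemannRochSpace (extDivisor L F' D) := by
  rw [mem_riemannRochSpace_iff] at hf ⊢
  intro w
  rcases eq_or_ne f 0 with rfl | hf0
  · exact Or.inl (map_zero _)
  refine Or.inr ?_
  by_cases hwr : w ∈ Set.range (extPlace L F' : Place K F → Place L F')
  · obtain ⟨v, rfl⟩ := hwr
    rw [extDivisor_apply_extPlace, ord_extPlace_algebraMap]
    exact (hf v).resolve_left hf0
  · rw [extDivisor_apply_of_notMem_range L F' D hwr,
      ord_algebraMap_eq_zero_of_notMem_range L F' hwr, neg_zero]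

variable (L F') in
/-- Base change of Riemann-Roch spaces. -/
theorem riemannRochSpace_extDivisor (D : Divisor K F) :
    riemannRochSpace (extDivisor L F' D) =
      Submodule.span L (algebraMap F F' '' (riemannRochSpace D : Set F)) := by
  classical
  refine le_antisymm (fun g hg => ?_) (Submodule.span_le.mpr ?_)
  · obtain ⟨t, rfl⟩ := mem_range_mulMap_of_mem_riemannRochSpace hg
    let b := Module.Free.chooseBasis K L
    let c := TensorProduct.equivFinsuppOfBasisLeft b t
    have htc : t = ∑ i ∈ c.support, b i ⊗ₜ c i := by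
      rw [← (TensorProduct.equivFinsuppOfBasisLeft b).symm_apply_apply t,
        TensorProduct.equivFinsuppOfBasisLeft_symm_apply]
      rfl
    rw [htc] at hg
    show mulMap K L F F' t ∈ _
    rw [htc, map_sum]
    refine Submodule.sum_mem _ fun i hi => ?_
    rw [mulMap_tmul, ← Algebra.smul_def]
    refine Submodule.smul_mem _ _ (Submodule.subset_span ⟨c i, ?_, rfl⟩)
    rw [SetLike.mem_coe, mem_riemannRochSpace_iff]
    intro v
    refine Or.inr (le_ord_of_le_ord_mulMap (L := L) (F' := F') b.linearIndependent v ?_ hi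
      (Finsupp.mem_support_iff.mp hi))
    have := (mem_riemannRochSpace_iff.mp hg) (extPlace L F' v)
    rw [extDivisor_apply_extPlace] at this
    exact this
  · rintro _ ⟨f, hf, rfl⟩
    exact algebraMap_mem_riemannRochSpace_extDivisor hf

variable (L F') in
theorem finrank_riemannRochSpace_extDivisor (D : Divisor K F) :
    Module.finrank L (riemannRochSpace (extDivisor L F' D)) =
      Module.finrank K (riemannRochSpace D) := by
  let b := Module.Free.chooseBasis K (riemannRochSpace D)
  have hli : LinearIndependent K (fun i => (b i : F)) :=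
    b.linearIndependent.map' (riemannRochSpace D).subtype (Submodule.ker_subtype _)
  have hspan : riemannRochSpace (extDivisor L F' D) =
      Submodule.span L (Set.range fun i => algebraMap F F' (b i : F)) := by
    rw [riemannRochSpace_extDivisor]
    refine le_antisymm (Submodule.span_le.mpr ?_) (Submodule.span_mono ?_)
    · rintro _ ⟨f, hf, rfl⟩
      rw [show f = ((⟨f, hf⟩ : riemannRochSpace D) : F) from rfl, ← b.sum_repr ⟨f, hf⟩]
      simp only [Submodule.coe_sum, Submodule.coe_smul, map_sum]
      refine Submodule.sum_mem _ fun i _ => ?_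
      rw [Algebra.smul_def, map_mul, ← IsScalarTower.algebraMap_apply K F F',
        IsScalarTower.algebraMap_apply K L F', ← Algebra.smul_def]
      exact Submodule.smul_mem _ _ (Submodule.subset_span ⟨i, rfl⟩)
    · rintro _ ⟨i, rfl⟩
      exact ⟨_, (b i).2, rfl⟩
  rw [hspan, finrank_span_eq_card (linearIndependent_algebraMap hli),
    Module.finrank_eq_card_basis b]

/-- `Pic⁰` of `F` injects into `Pic⁰` of the constant field extension. -/
theorem extPic0_injective :
    Function.Injective (extPic0 L F' : Pic0 K F → Pic0 L F') := by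
  rw [extPic0_injective_iff]
  rintro D hD ⟨g, hg, hgD⟩
  have hgmem : g ∈ riemannRochSpace (extDivisor L F' (-D)) := by
    rw [mem_riemannRochSpace_iff]
    intro w
    rw [map_neg, Finsupp.neg_apply, neg_neg, hgD w]
    exact Or.inr le_rfl
  obtain ⟨f, hf, hf0⟩ : ∃ f ∈ riemannRochSpace (-D), f ≠ 0 := by
    by_contra h
    push Not at h
    refine hg ?_
    rw [riemannRochSpace_extDivisor] at hgmem
    have h' : algebraMap F F' '' (riemannRochSpace (-D) : Set F) ⊆ {0} := by
      rintro _ ⟨f, hf, rfl⟩
      simp [h f hf]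
    simpa using Submodule.span_mono h' hgmem
  obtain ⟨E, hE, hE0⟩ := HasPrincipalDivisors.exists_divisor (K := K) f hf0
  have hge : 0 ≤ E - D := fun v => by
    have := ((mem_riemannRochSpace_iff.mp hf) v).resolve_left hf0
    rw [Finsupp.neg_apply, neg_neg] at this
    rw [Finsupp.sub_apply, hE v]
    simpa using this
  have hdeg : Divisor.degree (E - D) = 0 := by
    rw [map_sub, hE0, Divisor.mem_degZero.mp hD, sub_zero]
  have hzero : E - D = 0 := by
    ext v
    by_contra hv
    have hsum : Divisor.degree (E - D) = ∑ u ∈ (E - D).support, (E - D) u := by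
      conv_lhs => rw [← (E - D).sum_single, Finsupp.sum, map_sum]
      exact Finset.sum_congr rfl fun u _ => by
        rw [Divisor.degree_single, RationalPlaces.deg_eq_one, Nat.cast_one, mul_one]
    rw [hdeg] at hsum
    exact hv ((Finset.sum_eq_zero_iff_of_nonneg fun u _ => hge u).mp hsum.symm v
      (Finsupp.mem_support_iff.mpr hv))
  exact ⟨f, hf0, fun v => by rw [← hE v, sub_eq_zero.mp hzero]⟩

end Fermat.Agent.FF.ConstExt

end
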