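import Fermat.Agent.FF.RiemannRoch
import Fermat.Agent.FF.ConstExt.RRSpace

/-!
# The genus is invariant under constant field extension
-/

set_option autoImplicit false

noncomputable section

open AlgebraicCurve

namespace Fermat.Agent.FF.ConstExt

variable (K F L F' : Type*) [Field K] [Field F] [Algebra K F] [Field L] [Field F']
  [Algebra K L] [Algebra L F'] [Algebra F F'] [Algebra K F']
  [IsScalarTower K L F'] [IsScalarTower K F F'] [IsConstExt K L F F']
  [IsAlgClosed K] [IsAlgClosed L] [IsFunctionField K F]

theorem genusFF_eq : genusFF L F' = genusFF K F := by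
  have : IsFunctionField L F' := isFunctionField (K := K) (F := F) (L := L) (F' := F')
  obtain ⟨v⟩ : Nonempty (Place K F) := inferInstance
  set d : ℤ := 2 * (genusFF K F + genusFF L F' : ℤ) + 1 with hd
  have hdeg : Divisor.degree (Finsupp.single v d) = d := by
    rw [Divisor.degree_single, RationalPlaces.deg_eq_one, Nat.cast_one, mul_one]
  have h1 := finrank_riemannRochSpace_of_lt_degree (D := Finsupp.single v d) (by omega)
  have h2 := finrank_riemannRochSpace_of_lt_degree
    (D := extDivisor L F' (Finsupp.single v d)) (by rw [degree_extDivisor]; omega)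
  rw [finrank_riemannRochSpace_extDivisor, degree_extDivisor] at h2
  omega

end Fermat.Agent.FF.ConstExt

end
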