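import Fermat.Agent.FF.ConstExt.Divisor
import Mathlib.RingTheory.Localization.FractionRing
import Mathlib.FieldTheory.IsAlgClosed.Classification
import Mathlib.FieldTheory.IntermediateField.Adjoin.Algebra

/-!
# Automorphisms of the constants

Every `σ : L ≃ₐ[K] L` extends to a semilinear automorphism of a constant field extension `F'`
fixing `F`; for `K` algebraically closed and `c ∉ K` there are many translations `c ↦ c + a`.
-/

set_option autoImplicit false
set_option linter.unusedSectionVars false

noncomputable section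

open scoped TensorProduct
open AlgebraicCurve

namespace Fermat.Agent.FF.ConstExt

variable {K F : Type*} [Field K] [Field F] [Algebra K F]
variable {L F' : Type*} [Field L] [Field F']
  [Algebra K L] [Algebra L F'] [Algebra F F'] [Algebra K F']
  [IsScalarTower K L F'] [IsScalarTower K F F']

theorem exists_mulMap_div [IsConstExt K L F F'] (g : F') :
    ∃ a b : L ⊗[K] F, b ≠ 0 ∧ g = mulMap K L F F' a / mulMap K L F F' b := by
  have hle : Algebra.adjoin L (Set.range (algebraMap F F')) ≤ (mulMap K L F F').range :=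
    Algebra.adjoin_le (by rintro _ ⟨f, rfl⟩; exact ⟨1 ⊗ₜ f, by simp⟩)
  have hg : g ∈ IntermediateField.adjoin L (Set.range (algebraMap F F')) := by
    rw [IsConstExt.adjoin_eq_top (K := K) (L := L) (F := F) (F' := F')]
    trivial
  obtain ⟨r, hr, s, hs, rfl⟩ := IntermediateField.mem_adjoin_iff_div.mp hg
  obtain ⟨a, rfl⟩ := hle hr
  obtain ⟨b, rfl⟩ := hle hs
  rcases eq_or_ne b 0 with rfl | hb
  · exact ⟨0, 1, fun h => one_ne_zero (α := F') (by
      simpa using congrArg (mulMap K L F F') h), by simp⟩
  · exact ⟨a, b, hb, rfl⟩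

variable (K F L F') in
theorem isFractionRing_mulMap [IsConstExt K L F F'] :
    letI := (mulMap K L F F').toRingHom.toAlgebra
    IsFractionRing (L ⊗[K] F) F' := by
  let := (mulMap K L F F').toRingHom.toAlgebra
  have : FaithfulSMul (L ⊗[K] F) F' := (faithfulSMul_iff_algebraMap_injective _ _).mpr
    (IsConstExt.mulMap_injective (K := K) (L := L) (F := F) (F' := F'))
  refine IsFractionRing.of_field _ _ fun z => ?_
  obtain ⟨a, b, -, h⟩ := exists_mulMap_div (K := K) (F := F) (L := L) z
  exact ⟨a, b, h⟩

variable (F') in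
/-- The field automorphism of `F'` extending `σ` and fixing `F`. -/
def extRingAut [IsConstExt K L F F'] (σ : L ≃ₐ[K] L) : F' ≃+* F' :=
  letI := (mulMap K L F F').toRingHom.toAlgebra
  haveI := isFractionRing_mulMap K F L F'
  IsFractionRing.ringEquivOfRingEquiv
    (Algebra.TensorProduct.congr σ (AlgEquiv.refl : F ≃ₐ[K] F)).toRingEquiv

theorem extRingAut_mulMap [IsConstExt K L F F'] (σ : L ≃ₐ[K] L) (c : L) (f : F) :
    extRingAut (F := F) F' σ (algebraMap L F' c * algebraMap F F' f) =
      algebraMap L F' (σ c) * algebraMap F F' f := by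
  let := (mulMap K L F F').toRingHom.toAlgebra
  have := isFractionRing_mulMap K F L F'
  rw [← mulMap_tmul (K := K) c f, ← mulMap_tmul (K := K) (σ c) f]
  exact IsFractionRing.ringEquivOfRingEquiv_algebraMap _ (c ⊗ₜ[K] f)

variable (F') in
/-- The semilinear automorphism of `F'` extending `σ` and fixing `F`. -/
def extAut [IsConstExt K L F F'] (σ : L ≃ₐ[K] L) : SemilinearAut L F' :=
  ⟨(extRingAut (F := F) F' σ, σ.toRingEquiv), fun a => by
    simpa using extRingAut_mulMap (F := F) (F' := F') σ a 1⟩

@[simp]
theorem baseAut_extAut [IsConstExt K L F F'] (σ : L ≃ₐ[K] L) :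
    SemilinearAut.baseAut (extAut (F := F) F' σ) = σ.toRingEquiv := rfl

theorem isCompatibleAut_extAut [IsConstExt K L F F'] (σ : L ≃ₐ[K] L) :
    IsCompatibleAut (extAut (F := F) F' σ) (1 : SemilinearAut K F) := fun f => by
  simpa [extAut, SemilinearAut.toRingAut] using extRingAut_mulMap (F := F) (F' := F') σ 1 f

/-- Translations `c ↦ c + a` extend to automorphisms of an algebraically closed field over an
algebraically closed subfield not containing `c`. -/
theorem exists_algEquiv_translate [IsAlgClosed K] [IsAlgClosed L] {c : L}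
    (hc : c ∉ Set.range (algebraMap K L)) (a : K) :
    ∃ σ : L ≃ₐ[K] L, σ c = c + algebraMap K L a := by
  classical
  have htr : Transcendental K c := fun h => hc <|
    minpoly.mem_range_of_degree_eq_one K c
      (IsAlgClosed.degree_eq_one_of_irreducible K (minpoly.irreducible h.isIntegral))
  obtain ⟨t, hct, ht⟩ := exists_isTranscendenceBasis_superset (R := K) (s := {c})
    (algebraicIndependent_singleton_iff (x := fun z : ({c} : Set L) => (z : L)) ⟨c, rfl⟩ |>.mpr htr)
  let i₀ : t := ⟨c, hct rfl⟩
  let fwd : t → MvPolynomial t K := fun i =>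
    MvPolynomial.X i + MvPolynomial.C (if i = i₀ then a else 0)
  let bwd : t → MvPolynomial t K := fun i =>
    MvPolynomial.X i + MvPolynomial.C (if i = i₀ then -a else 0)
  let T : MvPolynomial t K ≃ₐ[K] MvPolynomial t K :=
    AlgEquiv.ofAlgHom (MvPolynomial.aeval fwd) (MvPolynomial.aeval bwd)
      (by ext i : 1; by_cases h : i = i₀ <;> simp [fwd, bwd, h])
      (by ext i : 1; by_cases h : i = i₀ <;> simp [fwd, bwd, h])
  let e := (ht.1.aevalEquiv.symm.trans T).trans ht.1.aevalEquiv
  let := IsAlgClosed.isAlgClosure_of_transcendence_basis (Subtype.val : t → L) ht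
  let σ : L ≃+* L := IsAlgClosure.equivOfEquiv L L e.toRingEquiv
  have hσ : ∀ y, σ (algebraMap _ L y) = algebraMap _ L (e y) := fun y =>
    IsAlgClosure.equivOfEquiv_algebraMap L L e.toRingEquiv y
  refine ⟨AlgEquiv.ofRingEquiv (f := σ) fun b => ?_, ?_⟩
  · rw [IsScalarTower.algebraMap_apply K (Algebra.adjoin K (Set.range (Subtype.val : t → L))) L,
      hσ, AlgEquiv.commutes]
  · show σ c = _
    have hc' : c = algebraMap _ L (ht.1.aevalEquiv (MvPolynomial.X i₀)) := by
      rw [AlgebraicIndependent.algebraMap_aevalEquiv]; simp [i₀]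
    conv_lhs => rw [hc', hσ]
    simp only [e, AlgEquiv.trans_apply, AlgEquiv.symm_apply_apply]
    rw [AlgebraicIndependent.algebraMap_aevalEquiv]
    simp [T, fwd, i₀]

end Fermat.Agent.FF.ConstExt

end
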