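import Fermat.Agent.FF.RiemannRoch
import Fermat.Agent.FF.ConstExt.RRSpace
import Fermat.Agent.FF.ConstExt.AutExt

/-!
# Descent of divisor classes with finite orbit

A class in `Pic⁰` of a constant field extension `F'` of `F` between algebraically closed fields
whose orbit under lifts of `L ≃ₐ[K] L` fixing `F` is finite comes from `Pic⁰` of `F`.
In particular torsion classes descend when the torsion subgroup is finite.
-/

set_option autoImplicit false
set_option linter.unusedSectionVars false

noncomputable section

open AlgebraicCurve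

namespace Fermat.Agent.FF.ConstExt

section General

variable {K F : Type*} [Field K] [Field F] [Algebra K F] [IsAlgClosed K] [IsFunctionField K F]

theorem finrank_riemannRochSpace_add_single_le_one {D : Divisor K F} (v : Place K F)
    (hD : riemannRochSpace (D - Finsupp.single v 1) = ⊥) {f g : F}
    (hf : f ∈ riemannRochSpace D) (hg : g ∈ riemannRochSpace D) (hf0 : f ≠ 0) :
    ∃ c : K, g = c • f := by
  have hsub : ∀ h ∈ riemannRochSpace D, h ≠ 0 → v.ord h = -D v := by
    intro h hh hh0
    by_contra hne
    have hmem : h ∈ riemannRochSpace (D - Finsupp.single v 1) := by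
      rw [mem_riemannRochSpace_iff] at hh ⊢
      intro w
      have hw := (hh w).resolve_left hh0
      refine Or.inr ?_
      by_cases hwv : w = v
      · subst hwv
        simp only [Finsupp.sub_apply, Finsupp.single_eq_same]
        omega
      · simp only [Finsupp.sub_apply, Finsupp.single_eq_of_ne hwv, sub_zero]
        exact hw
    rw [hD, Submodule.mem_bot] at hmem
    exact hh0 hmem
  rcases eq_or_ne g 0 with rfl | hg0
  · exact ⟨0, (zero_smul K f).symm⟩
  have hmem : g / f ∈ v.toValuationSubring := by
    rw [mem_iff_ord_nonneg, ord_div v hg0 hf0, hsub g hg hg0, hsub f hf hf0, sub_self]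
  set c := evalAt v ⟨g / f, hmem⟩ with hc
  refine ⟨c, ?_⟩
  by_contra hne
  have h0 : g - c • f ≠ 0 := sub_ne_zero.mpr hne
  have hord := hsub _ (sub_mem hg (Submodule.smul_mem _ c hf)) h0
  have hres : g / f - algebraMap K F c ∈ ordGE v 1 := by
    have hz : evalAt v (⟨g / f, hmem⟩ - algebraMap K v.toValuationSubring c) = 0 := by
      rw [map_sub, AlgHom.commutes, ← hc]; simp
    rw [evalAt_eq_zero_iff, ← IsLocalRing.residue_eq_zero_iff] at hz
    exact (residue_eq_zero_iff v _).mp hz
  have h1 : g - c • f = f * (g / f - algebraMap K F c) := by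
    rw [Algebra.smul_def]; field_simp
  have h2 : g - c • f ∈ ordGE v (v.ord f + 1) := by
    rw [h1, mul_mem_ordGE_iff v hf0, add_sub_cancel_left]
    exact hres
  have := le_ord_of_mem_ordGE v h2 h0
  rw [hord, hsub f hf hf0] at this
  omega

/-- Every degree-zero class has a unique representative `E - m • v` with `E` effective and `m`
minimal. -/
theorem exists_unique_effective (v : Place K F) {D : Divisor K F}
    (hD : D ∈ Divisor.degZero (K := K) (F := F)) :
    ∃ (m : ℤ) (E : Divisor K F), 0 ≤ E ∧
      E - Finsupp.single v m - D ∈ Divisor.principal (K := K) (F := F) ∧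
      ∀ E', 0 ≤ E' → E' - Finsupp.single v m - D ∈ Divisor.principal (K := K) (F := F) →
        E' = E := by
  classical
  let P : ℕ → Prop := fun m => riemannRochSpace (D + Finsupp.single v (m : ℤ)) ≠ ⊥
  have hex : ∃ m, P m := by
    refine ⟨genusFF K F, fun h => ?_⟩
    have h1 := le_finrank_riemannRochSpace (D + Finsupp.single v (genusFF K F : ℤ))
    rw [h, finrank_bot, map_add, Divisor.mem_degZero.mp hD, Divisor.degree_single,
      RationalPlaces.deg_eq_one] at h1
    push_cast at h1
    omega
  set m := Nat.find hex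
  have hprev : riemannRochSpace (D + Finsupp.single v (m : ℤ) - Finsupp.single v 1) = ⊥ := by
    rcases Nat.eq_zero_or_pos m with hm | hm
    · apply riemannRochSpace_eq_bot
      rw [hm, map_sub, map_add, Divisor.mem_degZero.mp hD, Divisor.degree_single,
        Divisor.degree_single, RationalPlaces.deg_eq_one]
      norm_num
    · have := Nat.find_min hex (m := m - 1) (by omega)
      simp only [P, not_not] at this
      rw [← this, add_sub_assoc, ← Finsupp.single_sub]
      congr 3
      omega
  obtain ⟨f, hf, hf0⟩ := Submodule.exists_mem_ne_zero_of_ne_bot (Nat.find_spec hex)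
  obtain ⟨Df, hDf, -⟩ := HasPrincipalDivisors.exists_divisor (K := K) f hf0
  refine ⟨m, D + Finsupp.single v (m : ℤ) + Df, fun w => ?_, ?_, fun E' hE' hE'p => ?_⟩
  · have := ((mem_riemannRochSpace_iff.mp hf) w).resolve_left hf0
    simp only [Finsupp.add_apply, hDf w, Finsupp.coe_zero, Pi.zero_apply] at this ⊢
    linarith
  · exact ⟨f, hf0, fun w => by
      simp only [Finsupp.sub_apply, Finsupp.add_apply, hDf w]; ring⟩
  · obtain ⟨h, hh0, hh⟩ := hE'p
    have hhmem : h ∈ riemannRochSpace (D + Finsupp.single v (m : ℤ)) := by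
      rw [mem_riemannRochSpace_iff]
      intro w
      refine Or.inr ?_
      have h1 := hh w
      have h2 := hE' w
      simp only [Finsupp.sub_apply, Finsupp.coe_zero, Pi.zero_apply] at h1 h2
      rw [Finsupp.add_apply]
      linarith
    obtain ⟨c, hc⟩ := finrank_riemannRochSpace_add_single_le_one v hprev hf hhmem hf0
    have hc0 : c ≠ 0 := fun h => hh0 (by rw [hc, h, zero_smul])
    ext w
    have h1 := hh w
    rw [hc, Algebra.smul_def, w.ord_mul (by simpa using hc0) hf0, ord_algebraMap, zero_add,
      ← hDf w] at h1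
    simp only [Finsupp.sub_apply, Finsupp.add_apply] at h1 ⊢
    linarith

end General

variable {K F : Type*} [Field K] [Field F] [Algebra K F]
variable {L F' : Type*} [Field L] [Field F']
  [Algebra K L] [Algebra L F'] [Algebra F F'] [Algebra K F']
  [IsScalarTower K L F'] [IsScalarTower K F F'] [IsConstExt K L F F']
variable [IsAlgClosed K] [IsAlgClosed L] [IsFunctionField K F]

open scoped Pointwise in
/-- A class of `F'` with finite orbit comes from `F`. -/
theorem mem_range_extPic0_of_finite_orbit
    (G : (L ≃ₐ[K] L) → SemilinearAut L F')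
    (hbase : ∀ σ, SemilinearAut.baseAut (G σ) = σ.toRingEquiv)
    (hfix : ∀ σ, IsCompatibleAut (G σ) (1 : SemilinearAut K F))
    (z : Pic0 L F') (hz : (Set.range fun σ => G σ • z).Finite) :
    z ∈ Set.range (extPic0 L F' : Pic0 K F → Pic0 L F') := by
  classical
  have : IsFunctionField L F' := isFunctionField (K := K) (F := F) (L := L) (F' := F')
  obtain ⟨x, hx, -⟩ := IsFunctionField.exists_transcendental (K := K) (F := F)
  obtain ⟨v₀, -⟩ := exists_place_ord_pos hx
  obtain ⟨⟨D, hD⟩, rfl⟩ := Pic0.mk_surjective z
  obtain ⟨m, E, hE, hEp, huniq⟩ := exists_unique_effective (extPlace L F' v₀) hD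
  -- all places in the support of `E` come from `F`
  suffices hsupp : ∀ w ∈ E.support, w ∈ Set.range (extPlace L F' : Place K F → Place L F') by
    have hinj : Set.InjOn (extPlace L F' : Place K F → Place L F')
        ((extPlace L F' : Place K F → Place L F') ⁻¹' ↑E.support) := extPlace_injective.injOn
    obtain ⟨E₀, hE₀⟩ : ∃ E₀ : Divisor K F, extDivisor L F' E₀ = E :=
      ⟨E.comapDomain (extPlace L F') hinj, Finsupp.mapDomain_comapDomain _ extPlace_injective E
        (fun w hw => hsupp w hw)⟩
    have hdeg : E₀ - Finsupp.single v₀ m ∈ Divisor.degZero (K := K) (F := F) := by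
      rw [Divisor.mem_degZero, ← degree_extDivisor L F', map_sub, extDivisor_single, hE₀]
      obtain ⟨f, hf, hdiv⟩ := hEp
      obtain ⟨Df, hDf, hDf0⟩ := HasPrincipalDivisors.exists_divisor (K := L) f hf
      have : E - Finsupp.single (extPlace L F' v₀) m = D + Df := by
        rw [← sub_eq_iff_eq_add']
        exact Finsupp.ext fun w => (hdiv w).trans (hDf w).symm
      rw [this, map_add, hDf0, Divisor.mem_degZero.mp hD, add_zero]
    refine ⟨Pic0.mk ⟨_, hdeg⟩, ?_⟩
    rw [extPic0_mk]
    refine (QuotientAddGroup.eq.mpr ?_)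
    rw [AddSubgroup.mem_addSubgroupOf]
    have : -(extDivisor L F' (E₀ - Finsupp.single v₀ m)) + D
        ∈ Divisor.principal (K := L) (F := F') := by
      rw [map_sub, extDivisor_single, hE₀]
      convert neg_mem hEp using 1
      abel
    simpa using this
  intro w hw
  by_contra hwr
  set y := algebraMap F F' x with hy
  have hy0 : w.ord y = 0 := ord_algebraMap_eq_zero_of_notMem_range L F' hwr x
  have hymem : y ∈ w.toValuationSubring := (mem_iff_ord_nonneg w).mpr hy0.ge
  set c := evalAt w ⟨y, hymem⟩ with hcdef
  have hres : ∀ (w' : Place L F') (d : L), y - algebraMap L F' d ∈ ordGE w' 1 →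
      ∀ d', y - algebraMap L F' d' ∈ ordGE w' 1 → d = d' := by
    intro w' d hd d' hd'
    by_contra hne
    have h := sub_mem hd' hd
    rw [sub_sub_sub_cancel_left, ← map_sub] at h
    have h1 := le_ord_of_mem_ordGE w' h ((map_ne_zero _).mpr (sub_ne_zero.mpr hne))
    rw [ord_algebraMap] at h1
    omega
  have hcw : y - algebraMap L F' c ∈ ordGE w 1 := by
    have hz : evalAt w (⟨y, hymem⟩ - algebraMap L w.toValuationSubring c) = 0 := by
      rw [map_sub, AlgHom.commutes, ← hcdef]; simp
    rw [evalAt_eq_zero_iff, ← IsLocalRing.residue_eq_zero_iff] at hz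
    exact (residue_eq_zero_iff w _).mp hz
  have hc : c ∉ Set.range (algebraMap K L) := by
    rintro ⟨a, ha⟩
    have hne : x - algebraMap K F a ≠ 0 := fun h =>
      hx (sub_eq_zero.mp h ▸ isAlgebraic_algebraMap a)
    have h1 : y - algebraMap L F' c = algebraMap F F' (x - algebraMap K F a) := by
      rw [map_sub, ← IsScalarTower.algebraMap_apply K F F', ← ha,
        ← IsScalarTower.algebraMap_apply K L F']
    rw [h1] at hcw
    have h2 := le_ord_of_mem_ordGE w hcw ((map_ne_zero _).mpr hne)
    rw [ord_algebraMap_eq_zero_of_notMem_range L F' hwr] at h2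
    omega
  choose τ hτ using exists_algEquiv_translate hc
  -- infinitely many translations send the class to the same place
  have : Infinite K := inferInstance
  let cls : K → Pic0 L F' := fun a => G (τ a) • Pic0.mk ⟨D, hD⟩
  obtain ⟨z', hz'⟩ : ∃ z', {a : K | cls a = z'}.Infinite := by
    by_contra hcon
    push Not at hcon
    refine Set.infinite_univ (α := K) ?_
    refine ((hz.biUnion (t := fun z' => {a : K | cls a = z'}) fun z' _ => hcon z')).subset
      fun a _ => ?_
    exact Set.mem_biUnion ⟨τ a, rfl⟩ (rfl : cls a = cls a)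
  obtain ⟨a₀, ha₀⟩ := hz'.nonempty
  set g₀ := G (τ a₀)
  have hP : ∀ σ, G σ • extPlace L F' v₀ = extPlace L F' v₀ := fun σ => by
    rw [smul_extPlace (hfix σ), one_smul]
  have hEeq : ∀ a, cls a = z' → G (τ a) • E = g₀ • E := by
    intro a ha
    set g := G (τ a)
    set h := g₀⁻¹ * g with hh
    have hzh : h • (Pic0.mk ⟨D, hD⟩ : Pic0 L F') = Pic0.mk ⟨D, hD⟩ := by
      rw [hh, mul_smul, show g • Pic0.mk ⟨D, hD⟩ = z' from ha, ← ha₀, inv_smul_smul]
    have hPh : h • extPlace L F' v₀ = extPlace L F' v₀ := by
      rw [hh, mul_smul, hP, inv_smul_eq_iff, hP]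
    have hhE : h • E = E := by
      refine huniq _ (fun w' => ?_) ?_
      · rw [SemilinearAut.divisor_smul_apply]
        exact hE _
      · have h1 := SemilinearAut.smul_mem_principal h hEp
        rw [smul_sub, smul_sub, SemilinearAut.smul_single, hPh] at h1
        rw [SemilinearAut.pic0_smul_mk] at hzh
        have h2 := QuotientAddGroup.eq.mp hzh
        rw [AddSubgroup.mem_addSubgroupOf] at h2
        simp only [AddSubgroup.coe_add, NegMemClass.coe_neg,
          SemilinearAut.coe_degZeroSMulHom] at h2
        convert sub_mem h1 h2 using 1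
        abel
    rw [hh, mul_smul, inv_smul_eq_iff] at hhE
    exact hhE
  have hmaps : Set.MapsTo (fun a => G (τ a) • w) {a : K | cls a = z'} ↑(g₀ • E).support := by
    intro a ha
    rw [Finset.mem_coe, Finsupp.mem_support_iff, ← hEeq a ha,
      SemilinearAut.divisor_smul_apply_smul]
    exact Finsupp.mem_support_iff.mp hw
  have hinj : Set.InjOn (fun a => G (τ a) • w) {a : K | cls a = z'} := by
    intro a _ b _ hab
    have key : ∀ a, y - algebraMap L F' (c + algebraMap K L a) ∈ ordGE (G (τ a) • w) 1 := by
      intro a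
      have h1 : SemilinearAut.toRingAut (G (τ a)) (y - algebraMap L F' c) =
          y - algebraMap L F' (c + algebraMap K L a) := by
        rw [map_sub, SemilinearAut.commutes, hbase, hy, hfix (τ a) x, ← hτ a]
        rfl
      rw [← h1]
      rcases eq_or_ne (y - algebraMap L F' c) 0 with h0 | h0
      · rw [h0, map_zero]; exact zero_mem _
      · refine mem_ordGE_of_le _ ?_
        rw [← SemilinearAut.smul_def, SemilinearAut.ord_smul]
        exact le_ord_of_mem_ordGE w hcw h0
    have h1 := key a
    simp only at hab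
    rw [hab] at h1
    exact (algebraMap K L).injective (add_left_cancel (hres _ _ h1 _ (key b)))
  exact hz' (((Finset.finite_toSet _).subset hmaps.image_subset).of_finite_image hinj)

/-- A class with finite orbit under the canonical lifts comes from `F`. -/
theorem mem_range_extPic0_of_finite_extAut_orbit (z : Pic0 L F')
    (hz : (Set.range fun σ : L ≃ₐ[K] L => extAut (F := F) F' σ • z).Finite) :
    z ∈ Set.range (extPic0 L F' : Pic0 K F → Pic0 L F') :=
  mem_range_extPic0_of_finite_orbit _ baseAut_extAut isCompatibleAut_extAut z hz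

theorem mem_range_extPic0_of_mem_torsion {n : ℕ} [Finite (Pic0.torsion L F' n)]
    {z : Pic0 L F'} (hz : z ∈ Pic0.torsion L F' n) :
    z ∈ Set.range (extPic0 L F' : Pic0 K F → Pic0 L F') :=
  mem_range_extPic0_of_finite_extAut_orbit z <|
    (Set.toFinite (Pic0.torsion L F' n : Set (Pic0 L F'))).subset <| by
      rintro _ ⟨σ, rfl⟩
      exact SemilinearAut.smul_mem_torsion _ hz

variable (L F') in
/-- If the torsion over `L` is finite, it is the torsion over `K`. -/
theorem bijOn_extPic0_torsion (n : ℕ) [Finite (Pic0.torsion L F' n)] :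
    Set.BijOn (extPic0 L F') (Pic0.torsion K F n : Set (Pic0 K F))
      (Pic0.torsion L F' n : Set (Pic0 L F')) := by
  refine ⟨fun z hz => ?_, extPic0_injective.injOn, fun z hz => ?_⟩
  · rw [SetLike.mem_coe, Pic0.mem_torsion] at hz ⊢
    rw [← map_zsmul, hz, map_zero]
  · obtain ⟨z₀, rfl⟩ := mem_range_extPic0_of_mem_torsion (K := K) (F := F) hz
    refine ⟨z₀, ?_, rfl⟩
    rw [SetLike.mem_coe, Pic0.mem_torsion] at hz ⊢
    exact extPic0_injective (by rw [map_zsmul, hz, map_zero])

variable (L F') in
theorem natCard_torsion_eq (n : ℕ) [Finite (Pic0.torsion L F' n)] :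
    Nat.card (Pic0.torsion K F n) = Nat.card (Pic0.torsion L F' n) :=
  Nat.card_congr (bijOn_extPic0_torsion L F' n).equiv

end Fermat.Agent.FF.ConstExt

end
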