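import Fermat.Agent.FF.ConstExt.Divisor
import Fermat.Agent.MF.Coeff.BaseChange
import Fermat.Prelude.Def_ModularCurve_ArithmeticGalois

/-!
# Constant field extensions of Laurent series fields

A criterion for `IsConstExt` inside Laurent series, the instance data for
`laurentBaseChange K F₀ → laurentBaseChange L F₀`, and compatibility with coefficientwise
automorphisms.
-/

set_option autoImplicit false
set_option linter.unusedSectionVars false

noncomputable section

open scoped TensorProduct
open AlgebraicCurve ModularCurve

namespace Fermat.Agent.FF.ConstExt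

section Criterion

variable {K L : Type*} [Field K] [Field L] [Algebra K L]
variable (E : IntermediateField K (LaurentSeries K)) (E' : IntermediateField L (LaurentSeries L))
variable [Algebra E E'] [Algebra K E'] [IsScalarTower K L E'] [IsScalarTower K E E']

/-- `E'` is the constant field extension of `E` if it is generated by the coefficientwise image
of `E`. -/
theorem isConstExt_of_coeffMap
    (hmap : ∀ x : E, (algebraMap E E' x : LaurentSeries L) =
      coeffMap (algebraMap K L) (x : LaurentSeries K))
    (hgen : E' ≤ IntermediateField.adjoin L
      (coeffMap (algebraMap K L) '' (E : Set (LaurentSeries K)))) :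
    IsConstExt K L E E' := by
  constructor
  · let b := Module.Free.chooseBasis K E
    let bt := Algebra.TensorProduct.basis L b
    have hb : LinearIndependent K (fun i => (b i : LaurentSeries K)) := by
      rw [linearIndependent_iff']
      intro s c hc
      refine linearIndependent_iff'.mp b.linearIndependent s c (Subtype.ext ?_)
      rw [← IntermediateField.coe_val, map_sum, IntermediateField.coe_val, ZeroMemClass.coe_zero]
      refine Eq.trans (Finset.sum_congr rfl fun i _ => ?_) hc
      rw [Algebra.smul_def, MulMemClass.coe_mul, MF.Coeff.smul_eq_algebraMap_mul]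
      rfl
    have hli : LinearIndependent L (fun i => mulMap K L E E' (bt i)) := by
      rw [linearIndependent_iff']
      intro s c hc
      refine linearIndependent_iff'.mp
        (MF.Coeff.linearIndependent_coeffMap (algebraMap K L) hb) s c ?_
      have hc' := congrArg (IntermediateField.val E') hc
      rw [map_sum, map_zero] at hc'
      refine Eq.trans (Finset.sum_congr rfl fun i _ => ?_) hc'
      rw [Algebra.smul_def, map_mul, MF.Coeff.smul_eq_algebraMap_mul, AlgHom.commutes]
      simp [bt, hmap]
    intro a a' h
    apply bt.repr.injective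
    have h1 : ∀ t, mulMap K L E E' t =
        Finsupp.linearCombination L (fun i => mulMap K L E E' (bt i)) (bt.repr t) := fun t => by
      conv_lhs => rw [← bt.linearCombination_repr t]
      rw [Finsupp.linearCombination_apply, Finsupp.linearCombination_apply, Finsupp.sum,
        Finsupp.sum, map_sum]
      simp [map_smul]
    apply hli
    rw [← h1, ← h1, h]
  · refine IntermediateField.lift_injective E' ?_
    rw [IntermediateField.lift_top, IntermediateField.lift, IntermediateField.adjoin_map]
    refine le_antisymm ?_ (hgen.trans (IntermediateField.adjoin.mono L _ _ ?_))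
    · rw [IntermediateField.adjoin_le_iff]
      rintro _ ⟨y, -, rfl⟩
      exact y.2
    · rintro _ ⟨x, hx, rfl⟩
      exact ⟨algebraMap E E' ⟨x, hx⟩, ⟨_, rfl⟩, hmap ⟨x, hx⟩⟩

end Criterion

section BaseChange

variable (K L : Type*) [Field K] [Algebra ℚ K] [Field L] [Algebra ℚ L] [Algebra K L]
variable (F₀ : IntermediateField ℚ (LaurentSeries ℚ))

/-- `K(F₀) → L(F₀)` as an algebra structure. Not a global instance. -/
abbrev baseChangeAlgebra : Algebra (laurentBaseChange K F₀) (laurentBaseChange L F₀) :=
  (MF.Coeff.baseChangeMap F₀ (algebraMap K L)).toAlgebra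

/-- `K → L(F₀)` as an algebra structure. Not a global instance. -/
abbrev baseChangeAlgebraBase : Algebra K (laurentBaseChange L F₀) :=
  ((algebraMap L (laurentBaseChange L F₀)).comp (algebraMap K L)).toAlgebra

theorem baseChange_isScalarTower_left :
    letI := baseChangeAlgebraBase K L F₀
    IsScalarTower K L (laurentBaseChange L F₀) :=
  letI := baseChangeAlgebraBase K L F₀
  IsScalarTower.of_algebraMap_eq fun _ => rfl

theorem baseChange_isScalarTower_right :
    letI := baseChangeAlgebra K L F₀
    letI := baseChangeAlgebraBase K L F₀
    IsScalarTower K (laurentBaseChange K F₀) (laurentBaseChange L F₀) :=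
  letI := baseChangeAlgebra K L F₀
  letI := baseChangeAlgebraBase K L F₀
  IsScalarTower.of_algebraMap_eq fun c =>
    (MF.Coeff.baseChangeMap_algebraMap F₀ (algebraMap K L) c).symm

theorem isConstExt_baseChange :
    letI := baseChangeAlgebra K L F₀
    letI := baseChangeAlgebraBase K L F₀
    haveI := baseChange_isScalarTower_left K L F₀
    haveI := baseChange_isScalarTower_right K L F₀
    IsConstExt K L (laurentBaseChange K F₀) (laurentBaseChange L F₀) := by
  letI := baseChangeAlgebra K L F₀
  letI := baseChangeAlgebraBase K L F₀
  haveI := baseChange_isScalarTower_left K L F₀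
  haveI := baseChange_isScalarTower_right K L F₀
  refine isConstExt_of_coeffMap _ _ (fun x => rfl) ?_
  show IntermediateField.adjoin L _ ≤ _
  refine IntermediateField.adjoin.mono L _ _ ?_
  rintro _ ⟨x, hx, rfl⟩
  exact ⟨coeffEmb K x, coeffEmb_mem_laurentBaseChange K hx,
    MF.Coeff.coeffMap_coeffEmb' (algebraMap K L) x⟩

variable {K L}

/-- Coefficientwise automorphisms that agree on `K` are compatible with the base change. -/
theorem isCompatibleAut_arithmeticGalois (σ : L ≃ₐ[ℚ] L) (τ : K ≃ₐ[ℚ] K)
    (h : ∀ c : K, σ (algebraMap K L c) = algebraMap K L (τ c)) :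
    letI := baseChangeAlgebra K L F₀
    IsCompatibleAut (arithmeticGalois F₀ σ) (arithmeticGalois F₀ τ) := by
  letI := baseChangeAlgebra K L F₀
  intro x
  apply Subtype.ext
  show coeffMap (σ : L →+* L) (coeffMap (algebraMap K L) (x : LaurentSeries K)) =
    coeffMap (algebraMap K L) (coeffMap (τ : K →+* K) (x : LaurentSeries K))
  rw [coeffMap_coeffMap, coeffMap_coeffMap]
  exact coeffMap_congr (RingHom.ext h) _

/-- Automorphisms fixing `K` fix the image of `K(F₀)`. -/
theorem isCompatibleAut_arithmeticGalois_one (σ : L ≃ₐ[ℚ] L)
    (h : ∀ c : K, σ (algebraMap K L c) = algebraMap K L c) :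
    letI := baseChangeAlgebra K L F₀
    IsCompatibleAut (arithmeticGalois F₀ σ)
      (1 : SemilinearAut K (laurentBaseChange K F₀)) := by
  have := isCompatibleAut_arithmeticGalois F₀ σ 1 h
  rwa [map_one] at this

end BaseChange

end Fermat.Agent.FF.ConstExt

end
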