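import Fermat.Agent.FF.ConstExt.Laurent
import Fermat.Agent.FF.ConstExt.Descent
import Fermat.Agent.FF.ConstExt.Genus

/-!
# Descent for `laurentBaseChange`

Packaged form of the constant extension results for `K(F₀) → L(F₀)`, with the Galois action
`σ • z` of `Def_ModularCurve_ArithmeticGalois`.
-/

set_option autoImplicit false
set_option linter.unusedSectionVars false

noncomputable section

open AlgebraicCurve ModularCurve

namespace Fermat.Agent.FF.ConstExt

variable (K L : Type*) [Field K] [Algebra ℚ K] [Field L] [Algebra ℚ L] [Algebra K L]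
variable (F₀ : IntermediateField ℚ (LaurentSeries ℚ))
variable [RationalPlaces K (laurentBaseChange K F₀)]

/-- `Pic⁰(K(F₀)) → Pic⁰(L(F₀))`. -/
def laurentPic0Map : Pic0 K (laurentBaseChange K F₀) →+ Pic0 L (laurentBaseChange L F₀) :=
  letI := baseChangeAlgebra K L F₀
  letI := baseChangeAlgebraBase K L F₀
  haveI := baseChange_isScalarTower_left K L F₀
  haveI := baseChange_isScalarTower_right K L F₀
  haveI := isConstExt_baseChange K L F₀
  extPic0 L (laurentBaseChange L F₀)

variable {K L}

theorem smul_laurentPic0Map (σ : L ≃ₐ[ℚ] L) (τ : K ≃ₐ[ℚ] K)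
    (h : ∀ c : K, σ (algebraMap K L c) = algebraMap K L (τ c))
    (x : Pic0 K (laurentBaseChange K F₀)) :
    σ • laurentPic0Map K L F₀ x = laurentPic0Map K L F₀ (τ • x) := by
  let := baseChangeAlgebra K L F₀
  let := baseChangeAlgebraBase K L F₀
  have := baseChange_isScalarTower_left K L F₀
  have := baseChange_isScalarTower_right K L F₀
  have := isConstExt_baseChange K L F₀
  rw [galois_smul_pic0_def, galois_smul_pic0_def]
  exact smul_extPic0 (isCompatibleAut_arithmeticGalois F₀ σ τ h) x

theorem smul_laurentPic0Map_of_fixes (σ : L ≃ₐ[ℚ] L)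
    (h : ∀ c : K, σ (algebraMap K L c) = algebraMap K L c)
    (x : Pic0 K (laurentBaseChange K F₀)) :
    σ • laurentPic0Map K L F₀ x = laurentPic0Map K L F₀ x := by
  conv_rhs => rw [← one_smul (K ≃ₐ[ℚ] K) x]
  exact smul_laurentPic0Map F₀ σ 1 h x

variable (K L) [IsAlgClosed K] [IsAlgClosed L] [IsFunctionField K (laurentBaseChange K F₀)]

theorem laurentPic0Map_injective : Function.Injective (laurentPic0Map K L F₀) := by
  let := baseChangeAlgebra K L F₀
  let := baseChangeAlgebraBase K L F₀
  have := baseChange_isScalarTower_left K L F₀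
  have := baseChange_isScalarTower_right K L F₀
  have := isConstExt_baseChange K L F₀
  exact extPic0_injective

/-- The genus does not depend on the constants. -/
theorem genusFF_laurentBaseChange :
    genusFF L (laurentBaseChange L F₀) = genusFF K (laurentBaseChange K F₀) := by
  let := baseChangeAlgebra K L F₀
  let := baseChangeAlgebraBase K L F₀
  have := baseChange_isScalarTower_left K L F₀
  have := baseChange_isScalarTower_right K L F₀
  have := isConstExt_baseChange K L F₀
  exact genusFF_eq K (laurentBaseChange K F₀) L (laurentBaseChange L F₀)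

/-- A class over `L` with finite orbit under the automorphisms of `L` fixing `K` comes
from `K`. -/
theorem mem_range_laurentPic0Map_of_finite_orbit (z : Pic0 L (laurentBaseChange L F₀))
    (hz : ((fun σ : L ≃ₐ[ℚ] L => σ • z) ''
      {σ | ∀ c : K, σ (algebraMap K L c) = algebraMap K L c}).Finite) :
    z ∈ Set.range (laurentPic0Map K L F₀) := by
  let := baseChangeAlgebra K L F₀
  let := baseChangeAlgebraBase K L F₀
  have := baseChange_isScalarTower_left K L F₀
  have := baseChange_isScalarTower_right K L F₀
  have := isConstExt_baseChange K L F₀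
  have hℚ : IsScalarTower ℚ K L := IsScalarTower.of_algebraMap_eq fun q => by simp
  refine mem_range_extPic0_of_finite_orbit (K := K) (F := laurentBaseChange K F₀)
    (fun σ : L ≃ₐ[K] L => arithmeticGalois F₀ (σ.restrictScalars ℚ)) (fun σ => ?_)
    (fun σ => isCompatibleAut_arithmeticGalois_one (K := K) F₀ (σ.restrictScalars ℚ)
      fun c => σ.commutes c) z ?_
  · rw [baseAut_arithmeticGalois]; rfl
  · refine hz.subset ?_
    rintro _ ⟨σ, rfl⟩
    exact ⟨σ.restrictScalars ℚ, fun c => σ.commutes c, rfl⟩

/-- Torsion classes descend when the torsion over `L` is finite. -/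
theorem mem_range_laurentPic0Map_of_mem_torsion {n : ℕ}
    [Finite (Pic0.torsion L (laurentBaseChange L F₀) n)]
    {z : Pic0 L (laurentBaseChange L F₀)}
    (hz : z ∈ Pic0.torsion L (laurentBaseChange L F₀) n) :
    z ∈ Set.range (laurentPic0Map K L F₀) := by
  refine mem_range_laurentPic0Map_of_finite_orbit K L F₀ z
    ((Set.toFinite (Pic0.torsion L (laurentBaseChange L F₀) n : Set _)).subset ?_)
  rintro _ ⟨σ, -, rfl⟩
  show σ • z ∈ _
  rw [galois_smul_pic0_def]
  exact SemilinearAut.smul_mem_torsion _ hz

end Fermat.Agent.FF.ConstExt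

end
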