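import Fermat.Agent.FF.ConstExt.Basic
import Mathlib.RingTheory.Flat.Basic

/-!
# The local ring of `L ⊗[K] F` at a rational place of `F`

For a rational place `v` of `F / K`, the ring `L ⊗[K] O_v` maps injectively to `F'`, has an
evaluation `res` to `L`, and each nonzero element is a power of a uniformizer times an element
with nonzero evaluation.
-/

set_option autoImplicit false

noncomputable section

open scoped TensorProduct
open AlgebraicCurve

namespace Fermat.Agent.FF.ConstExt

variable (K L F F' : Type*) [Field K] [Field L] [Field F] [Field F']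
  [Algebra K L] [Algebra K F] [Algebra L F'] [Algebra F F'] [Algebra K F']
  [IsScalarTower K L F'] [IsScalarTower K F F'] [RationalPlaces K F] (v : Place K F)

/-- The map `L ⊗[K] O_v → F'`. -/
def localMap : L ⊗[K] v.toValuationSubring →ₐ[L] F' :=
  (mulMap K L F F').comp
    (Algebra.TensorProduct.map (AlgHom.id L L) (IsScalarTower.toAlgHom K v.toValuationSubring F))

/-- Evaluation `L ⊗[K] O_v → L` at `v`. -/
def localEval : L ⊗[K] v.toValuationSubring →ₐ[L] L :=
  Algebra.TensorProduct.lift (AlgHom.id L L) ((Algebra.ofId K L).comp (evalAt v))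
    (fun _ _ => Commute.all _ _)

variable {K L F F'}

omit [RationalPlaces K F] in
@[simp]
theorem localMap_tmul (c : L) (f : v.toValuationSubring) :
    localMap K L F F' v (c ⊗ₜ f) = algebraMap L F' c * algebraMap F F' (f : F) := by
  simp [localMap]

@[simp]
theorem localEval_tmul (c : L) (f : v.toValuationSubring) :
    localEval K L F v (c ⊗ₜ f) = c * algebraMap K L (evalAt v f) := by
  simp [localEval]

omit [RationalPlaces K F] in
theorem localMap_injective [IsConstExt K L F F'] :
    Function.Injective (localMap K L F F' v) := by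
  have h : Function.Injective
      ((IsScalarTower.toAlgHom K v.toValuationSubring F).toLinearMap.lTensor L) :=
    Module.Flat.lTensor_preserves_injective_linearMap _ Subtype.val_injective
  intro a b hab
  exact h ((IsConstExt.mulMap_injective (K := K) (L := L) (F := F) (F' := F')) hab)

theorem exists_eq_pow_mul {a : L ⊗[K] v.toValuationSubring} (ha : a ≠ 0)
    {π : v.toValuationSubring} (hπ : Irreducible π) :
    ∃ (n : ℕ) (a' : L ⊗[K] v.toValuationSubring),
      localEval K L F v a' ≠ 0 ∧ a = (1 ⊗ₜ π) ^ n * a' := by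
  classical
  let b := Module.Free.chooseBasis K L
  let c := TensorProduct.equivFinsuppOfBasisLeft b a
  have hac : a = ∑ i ∈ c.support, b i ⊗ₜ c i := by
    rw [← (TensorProduct.equivFinsuppOfBasisLeft b).symm_apply_apply a,
      TensorProduct.equivFinsuppOfBasisLeft_symm_apply]
    rfl
  have hc : c.support.Nonempty := by
    rw [Finsupp.support_nonempty_iff]
    exact fun h => ha ((LinearEquiv.map_eq_zero_iff _).mp h)
  have hfac : ∀ i ∈ c.support, ∃ (n : ℕ) (u : v.toValuationSubringˣ), c i = u * π ^ n :=
    fun i hi =>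
      IsDiscreteValuationRing.eq_unit_mul_pow_irreducible (Finsupp.mem_support_iff.mp hi) hπ
  choose! n u hu using hfac
  obtain ⟨i₀, hi₀, hmin⟩ := c.support.exists_min_image n hc
  refine ⟨n i₀, ∑ i ∈ c.support,
    b i ⊗ₜ[K] ((u i : v.toValuationSubring) * π ^ (n i - n i₀)), ?_, ?_⟩
  · intro h
    simp only [map_sum, localEval_tmul] at h
    have h' : ∑ i ∈ c.support,
        evalAt v ((u i : v.toValuationSubring) * π ^ (n i - n i₀)) • b i = 0 := by
      rw [← h]
      exact Finset.sum_congr rfl fun i _ => by rw [Algebra.smul_def, mul_comm]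
    have := linearIndependent_iff'.mp b.linearIndependent _ _ h' i₀ hi₀
    rw [Nat.sub_self, pow_zero, mul_one] at this
    exact (evalAt_ne_zero_iff v _).mpr (u i₀).isUnit this
  · refine hac.trans ?_
    rw [Algebra.TensorProduct.tmul_pow, one_pow, Finset.mul_sum]
    refine Finset.sum_congr rfl fun i hi => ?_
    rw [Algebra.TensorProduct.tmul_mul_tmul, one_mul, hu i hi]
    have : π ^ n i = π ^ n i₀ * π ^ (n i - n i₀) := by
      rw [← pow_add, Nat.add_sub_cancel' (hmin i hi)]
    rw [this]
    ring_nf

theorem exists_eq_mul_of_localEval_eq_zero {a : L ⊗[K] v.toValuationSubring}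
    (ha : localEval K L F v a = 0) {π : v.toValuationSubring} (hπ : Irreducible π) :
    ∃ a', a = (1 ⊗ₜ π) * a' := by
  rcases eq_or_ne a 0 with rfl | h0
  · exact ⟨0, by simp⟩
  obtain ⟨n, a', ha', rfl⟩ := exists_eq_pow_mul v h0 hπ
  rcases n with _ | n
  · simp only [pow_zero, one_mul] at ha
    exact absurd ha ha'
  · exact ⟨(1 ⊗ₜ π) ^ n * a', by rw [pow_succ']; ring⟩

end Fermat.Agent.FF.ConstExt

end
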